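import Fermat.Agent.MU.S36.Norm.VertProd
import Fermat.Agent.MU.Lib.BadRed.Bridge.E1
import Fermat.Agent.Lib.BadRed.Bridge.NormRed
import Fermat.Agent.Lib.GaussInt.ValGroup

section MergeWrap_S36_Norm_VertRed -- from S36/Norm/VertRed.lean

set_option autoImplicit false
set_option linter.style.haveILetI false
set_option linter.unusedSectionVars false

/-!
# S36 (Carayol), block NORM-VERT, part 3: the vertical norm relations (N1), (N1')  (helper66)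

`ℓ` prime, `ℓ ∣ N`, `A ∣ ℓ`, `k` the residue field of `A`.  `F₁ = F_N ⊂ F = F_{Nℓ}`,
`α = π₁^*` (inclusion), `β = π₂^*` (`x(q) ↦ x(q^ℓ)`), `w₁`, `W₂` the Atkin–Lehner involutions of
`VertW.lean`.  `v_∞` = Gauss valuation of the `q`-expansion, `v_0 = v_∞ ∘ w`.
In `RedAt` form (`RedAt A ψ x r`: `ψ x` is a Gauss unit... with residue `r`):

* `redAt_norm_beta`    (N1')  `red_{v_∞} y = r ≠ 0`  ⟹  `red_{v_∞} (Norm_β y) = Frob r`;
* `redAt_norm_alpha`   (N1)   `red_{v_0} y = r ≠ 0`  ⟹  `red_{v_0} (Norm_α y) = Frob r`;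
* `redAt_norm_alpha_W`        `red_{v_∞} y = r ≠ 0`  ⟹  `red_{v_0} (Norm_α (W₂ y)) = Frob r`
  (the form for `π₂_* = α_* ∘ W_*`);

`Frob r` = the coefficientwise Frobenius of the series `r` (so `(Frob r)(q^ℓ) = r(q)^ℓ`).
Consequence `exists_pow_of_norm_pow`: if `Norm y = c uⁿ` and `ℓ ∤ n`... is left to the consumer
(`coeffMap frobenius` is injective and commutes with `n`-th powers).
-/

noncomputable section

namespace Fermat.Agent.S36N

open ModularCurve AlgebraicCurve Fermat.Agent.F3 Fermat.Agent.F3G Fermat.Agent.GaussInt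
  Fermat.Agent.AtkinLehner Fermat.Agent.Kronecker Fermat.Agent.BadRed Fermat.Agent.HeckeComm

local notation "Qb" => AlgebraicClosure ℚ

attribute [local instance 10000] SubalgebraClass.toAlgebra HahnSeries.powerSeriesAlgebra

set_option synthInstance.maxHeartbeats 400000

variable {N ℓ : ℕ} [NeZero N] [NeZero ℓ] {A : ValuationSubring Qb}

theorem one_mem_gaussSub' (M : ℕ) :
    (1 : LaurentSeries Qb) ∈ gaussSub A (modularFunctionFieldBar M) :=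
  (gaussSub A (modularFunctionFieldBar M)).one_mem

theorem gaussResFun_one' (M : ℕ) :
    gaussResFun A (modularFunctionFieldBar M) (1 : LaurentSeries Qb) = 1 := by
  rw [gaussResFun_eq (IsPres.one (A := A) (F := modularFunctionFieldBar M)), map_one, div_one]

/-- **(N1'), formal form**: `n₀(q^ℓ) = ∏_b y(ζ^b q)` ⟹ `res n₀ = Frob (res y)`. -/
theorem gaussResFun_norm_beta_formal [Fact ℓ.Prime] [CharP (IsLocalRing.ResidueField A) ℓ]
    (hA : A.LiesOverPrime ℓ) (ζ : Qbˣ) (hζ : IsPrimitiveRoot ζ ℓ)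
    {y n₀ : LaurentSeries Qb}
    (hy : y ∈ gaussSub A (modularFunctionFieldBar (N * ℓ)))
    (hyr : gaussResFun A (modularFunctionFieldBar (N * ℓ)) y ≠ 0)
    (hn₀ : n₀ ∈ modularFunctionFieldBar N)
    (h : qExpand Qb ℓ n₀ = ∏ b ∈ Finset.range ℓ, scaleL (ζ ^ b) y) :
    n₀ ∈ gaussSub A (modularFunctionFieldBar N) ∧
      gaussResFun A (modularFunctionFieldBar N) n₀ =
        coeffMap (frobenius (IsLocalRing.ResidueField A) ℓ)
          (gaussResFun A (modularFunctionFieldBar (N * ℓ)) y) := by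
  have hℓ : ℓ.Prime := Fact.out
  have hval : ∀ z : LaurentSeries Qb, z ∈ modularFunctionFieldBar N → z ≠ 0 → ∃ c : Qb, c ≠ 0 ∧
      algebraMap Qb (LaurentSeries Qb) c * z ∈ gaussSub A (modularFunctionFieldBar N) ∧
      gaussResFun A (modularFunctionFieldBar N) (algebraMap Qb (LaurentSeries Qb) c * z) ≠ 0 := by
    intro z hz hz0
    exact valueGroupAt N ℓ hℓ A hA ⟨z, hz⟩ (fun h0 => hz0 (congrArg Subtype.val h0))
  have h' : qExpand Qb ℓ n₀ = qExpand Qb ℓ 1 * ∏ b ∈ Finset.range ℓ, scaleL (ζ ^ b) y := by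
    rw [map_one, one_mul]; exact h
  have key := gaussResFun_norm_formal A ℓ (modularFunctionFieldBar N)
    (modularFunctionFieldBar N) (modularFunctionFieldBar (N * ℓ)) hval ζ hζ
    (X := (1 : LaurentSeries Qb)) (P := y) (n₀ := n₀)
    (one_mem_gaussSub' N) (by rw [gaussResFun_one']; exact one_ne_zero) hy hyr hn₀ h'
  refine ⟨key.1, ?_⟩
  rw [key.2, gaussResFun_one', one_mul]

theorem exists_primitiveRoot_units (ℓ : ℕ) [NeZero ℓ] : ∃ ζ : Qbˣ, IsPrimitiveRoot ζ ℓ := by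
  obtain ⟨z, hz⟩ := HasEnoughRootsOfUnity.exists_primitiveRoot Qb ℓ
  exact ⟨hz.isUnit (NeZero.ne ℓ) |>.unit, by
    rw [← IsPrimitiveRoot.coe_units_iff]
    exact hz⟩

/-- **(N1'), Gauss form**: the residue of `Norm_β y` is the Frobenius twist of the residue
of `y`. -/
theorem gaussResFun_norm_beta [Fact ℓ.Prime] [CharP (IsLocalRing.ResidueField A) ℓ]
    (hA : A.LiesOverPrime ℓ) (hℓN : ℓ ∣ N) (D₁ D₂ : ALData)
    (hQ : D₂.Q = D₁.Q * ℓ) (hR : D₂.R = D₁.R) (hN : N = D₁.Q * D₁.R)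
    (hNℓ : N * ℓ = D₂.Q * D₂.R) {y : FBar (N * ℓ)}
    (hy : (y : LaurentSeries Qb) ∈ gaussSub A (modularFunctionFieldBar (N * ℓ)))
    (hyr : gaussResFun A (modularFunctionFieldBar (N * ℓ)) (y : LaurentSeries Qb) ≠ 0) :
    ((normAlong (heckeBetaBar Qb N ℓ) y : FBar N) : LaurentSeries Qb) ∈
        gaussSub A (modularFunctionFieldBar N) ∧
      gaussResFun A (modularFunctionFieldBar N)
          ((normAlong (heckeBetaBar Qb N ℓ) y : FBar N) : LaurentSeries Qb) =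
        coeffMap (frobenius (IsLocalRing.ResidueField A) ℓ)
          (gaussResFun A (modularFunctionFieldBar (N * ℓ)) (y : LaurentSeries Qb)) := by
  obtain ⟨ζ, hζ⟩ := exists_primitiveRoot_units ℓ
  exact gaussResFun_norm_beta_formal hA ζ hζ hy hyr
    (SetLike.coe_mem (normAlong (heckeBetaBar Qb N ℓ) y))
    (norm_beta_expansion (Fact.out : ℓ.Prime) hℓN D₁ D₂ hQ hR hN hNℓ ζ hζ y)

/-- `RedAt` for `ψ` is `RedAt` for the identity at `ψ x` (generic, so that the kernel never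
unfolds `ψ`). -/
theorem redAt_refl_iff_gen {M : ℕ} {ψ : FBar M ≃ₐ[Qb] FBar M} {x : FBar M}
    {r : LaurentSeries (IsLocalRing.ResidueField A)} :
    RedAt A (AlgEquiv.refl : FBar M ≃ₐ[Qb] FBar M) (ψ x) r ↔ RedAt A ψ x r := Iff.rfl

theorem redAt_refl_def {M : ℕ} {x : FBar M}
    {r : LaurentSeries (IsLocalRing.ResidueField A)} :
    RedAt A (AlgEquiv.refl : FBar M ≃ₐ[Qb] FBar M) x r ↔
      ((x : LaurentSeries Qb) ∈ gaussSub A (modularFunctionFieldBar M) ∧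
        gaussResFun A (modularFunctionFieldBar M) (x : LaurentSeries Qb) = r) := Iff.rfl

/-- **(N1')** `red_{v_∞} y = r ≠ 0 ⟹ red_{v_∞} (Norm_β y) = Frob r`. -/
theorem redAt_norm_beta [Fact ℓ.Prime] [CharP (IsLocalRing.ResidueField A) ℓ]
    (hA : A.LiesOverPrime ℓ) (hℓN : ℓ ∣ N) (D₁ D₂ : ALData)
    (hQ : D₂.Q = D₁.Q * ℓ) (hR : D₂.R = D₁.R) (hN : N = D₁.Q * D₁.R)
    (hNℓ : N * ℓ = D₂.Q * D₂.R) {y : FBar (N * ℓ)}
    {r : LaurentSeries (IsLocalRing.ResidueField A)}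
    (hy : RedAt A (AlgEquiv.refl : FBar (N * ℓ) ≃ₐ[Qb] FBar (N * ℓ)) y r) (hr : r ≠ 0) :
    RedAt A (AlgEquiv.refl : FBar N ≃ₐ[Qb] FBar N) (normAlong (heckeBetaBar Qb N ℓ) y)
      (coeffMap (frobenius (IsLocalRing.ResidueField A) ℓ) r) := by
  obtain ⟨hy1, hy2⟩ := redAt_refl_def.mp hy
  have key := gaussResFun_norm_beta hA hℓN D₁ D₂ hQ hR hN hNℓ hy1 (by rw [hy2]; exact hr)
  rw [hy2] at key
  exact redAt_refl_def.mpr key

/-- **(N1)** `red_{v_0} y = r ≠ 0 ⟹ red_{v_0} (Norm_α y) = Frob r`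
(`v_0 = v_∞ ∘ W₂` on `F`, `v_0 = v_∞ ∘ w₁` on `F₁`). -/
theorem redAt_norm_alpha [Fact ℓ.Prime] [CharP (IsLocalRing.ResidueField A) ℓ]
    (hA : A.LiesOverPrime ℓ) (hℓN : ℓ ∣ N) (D₁ D₂ : ALData)
    (hQ : D₂.Q = D₁.Q * ℓ) (hR : D₂.R = D₁.R) (hN : N = D₁.Q * D₁.R)
    (hNℓ : N * ℓ = D₂.Q * D₂.R) {y : FBar (N * ℓ)}
    {r : LaurentSeries (IsLocalRing.ResidueField A)}
    (hy : RedAt A (wAt D₂ hNℓ) y r) (hr : r ≠ 0) :
    RedAt A (wAt D₁ hN) (normAlong (heckeAlphaBar Qb N ℓ) y)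
      (coeffMap (frobenius (IsLocalRing.ResidueField A) ℓ) r) := by
  have h2 := redAt_norm_beta hA hℓN D₁ D₂ hQ hR hN hNℓ (redAt_refl_iff_gen.mpr hy) hr
  rw [normAlong_beta_wAt D₁ D₂ hQ hR hN hNℓ y] at h2
  exact redAt_refl_iff_gen.mp h2

/-- **(N1'), form for `π₂_* = α_* ∘ W_*`**:
`red_{v_∞} y = r ≠ 0 ⟹ red_{v_0} (Norm_α (W₂ y)) = Frob r`. -/
theorem redAt_norm_alpha_W [Fact ℓ.Prime] [CharP (IsLocalRing.ResidueField A) ℓ]
    (hA : A.LiesOverPrime ℓ) (hℓN : ℓ ∣ N) (D₁ D₂ : ALData)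
    (hQ : D₂.Q = D₁.Q * ℓ) (hR : D₂.R = D₁.R) (hN : N = D₁.Q * D₁.R)
    (hNℓ : N * ℓ = D₂.Q * D₂.R) {y : FBar (N * ℓ)}
    {r : LaurentSeries (IsLocalRing.ResidueField A)}
    (hy : RedAt A (AlgEquiv.refl : FBar (N * ℓ) ≃ₐ[Qb] FBar (N * ℓ)) y r) (hr : r ≠ 0) :
    RedAt A (wAt D₁ hN) (normAlong (heckeAlphaBar Qb N ℓ) (wAt D₂ hNℓ y))
      (coeffMap (frobenius (IsLocalRing.ResidueField A) ℓ) r) := by
  refine redAt_norm_alpha hA hℓN D₁ D₂ hQ hR hN hNℓ ?_ hr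
  refine redAt_refl_iff_gen.mp ?_
  rw [wAt_wAt]
  exact hy

end Fermat.Agent.S36N
end
end MergeWrap_S36_Norm_VertRed
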