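import Mathlib
import Fermat.Agent.S36.Norm.HorAbs
import Fermat.Agent.MU.S36.HPVal.Defs
import Fermat.Agent.MU.Lib.HP.Deg
import Fermat.Agent.Lib.FrobTrace.Residue

section MergeWrap_S36_Norm_HorTower -- from S36/Norm/HorTower.lean

set_option autoImplicit false
set_option linter.unusedSectionVars false

noncomputable section

namespace Fermat.Agent.S36

open Fermat.Agent.BadRed

section Tower

variable {K₀ E F : Type*} [Field K₀] [Field E] [Field F] [Algebra K₀ E] [Algebra E F]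
  [Algebra K₀ F] [IsScalarTower K₀ E F]
  {ι : Type*} [Fintype ι]
  {Ov : ValuationSubring K₀} {O : ι → ValuationSubring F}
  {k₀ : Type*} [Field k₀] {ρ₀ : Ov →+* k₀}
  {Fk : ι → Type*} [∀ i, Field (Fk i)] [∀ i, Algebra k₀ (Fk i)]
  {ρ : ∀ i, O i →+* Fk i}

/-- a ring homomorphism to a field kills only non-units. -/
theorem mem_nonunits_of_map_eq_zero {L M : Type*} [Field L] [Field M] {B : ValuationSubring L}
    (f : B →+* M) (y : B) (hy : f y = 0) : (y : L) ∈ B.nonunits := by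
  rw [ValuationSubring.coe_mem_nonunits_iff]
  intro hu
  exact (hu.map f).ne_zero hy

variable (E) in
/-- the residue field of the restriction of `O i` to `E`, a subfield of `Fk i`. -/
def towerResField (H : SqueezeSetup Ov O ρ₀ ρ) (i : ι) : IntermediateField k₀ (Fk i) where
  carrier := {β | ∃ (y : E) (hy : algebraMap E F y ∈ O i), ρ i ⟨algebraMap E F y, hy⟩ = β}
  mul_mem' := by
    rintro _ _ ⟨y, hy, rfl⟩ ⟨z, hz, rfl⟩
    have hyz : algebraMap E F (y * z) ∈ O i := by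
      rw [map_mul]
      exact (O i).mul_mem _ _ hy hz
    refine ⟨y * z, hyz, ?_⟩
    rw [← map_mul]
    congr 1
    apply Subtype.ext
    exact map_mul _ _ _
  add_mem' := by
    rintro _ _ ⟨y, hy, rfl⟩ ⟨z, hz, rfl⟩
    have hyz : algebraMap E F (y + z) ∈ O i := by
      rw [map_add]
      exact (O i).add_mem _ _ hy hz
    refine ⟨y + z, hyz, ?_⟩
    rw [← map_add]
    congr 1
    apply Subtype.ext
    exact map_add _ _ _
  algebraMap_mem' := by
    intro c
    obtain ⟨a, rfl⟩ := H.surj₀ c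
    have ha : algebraMap K₀ F (a : K₀) ∈ O i := ((H.liesOver i).mem_iff _).mpr a.2
    have ha' : algebraMap E F (algebraMap K₀ E (a : K₀)) ∈ O i := by
      rw [← IsScalarTower.algebraMap_apply]
      exact ha
    refine ⟨algebraMap K₀ E (a : K₀), ha', ?_⟩
    rw [← H.compat i (a : K₀) a.2 ha]
    congr 1
    apply Subtype.ext
    exact (IsScalarTower.algebraMap_apply K₀ E F _).symm
  inv_mem' := by
    rintro _ ⟨y, hy, rfl⟩
    by_cases h0 : ρ i ⟨algebraMap E F y, hy⟩ = 0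
    · rw [h0, inv_zero]
      have h00 : algebraMap E F 0 ∈ O i := by
        rw [map_zero]
        exact (O i).zero_mem
      refine ⟨0, h00, ?_⟩
      have : (⟨algebraMap E F 0, h00⟩ : O i) = 0 := by
        apply Subtype.ext
        exact map_zero _
      rw [this, map_zero]
    · have hnn : algebraMap E F y ∉ (O i).nonunits := fun hn => h0 (H.ker i _ hn)
      have hu : IsUnit (⟨algebraMap E F y, hy⟩ : O i) := by
        rw [← not_not (a := IsUnit _)]
        intro hnu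
        exact hnn ((ValuationSubring.coe_mem_nonunits_iff (A := O i)).mpr hnu)
      have hv : (O i).valuation (algebraMap E F y) = 1 :=
        (ValuationSubring.valuation_eq_one_iff (O i) ⟨algebraMap E F y, hy⟩).mp hu
      have hinv : algebraMap E F y⁻¹ ∈ O i := by
        rw [map_inv₀, ← ValuationSubring.valuation_le_one_iff, map_inv₀, hv, inv_one]
      refine ⟨y⁻¹, hinv, ?_⟩
      have hy0 : algebraMap E F y ≠ 0 := by
        intro h
        rw [h, map_zero] at hv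
        exact zero_ne_one hv
      have hmul : (⟨algebraMap E F y⁻¹, hinv⟩ : O i) * ⟨algebraMap E F y, hy⟩ = 1 := by
        apply Subtype.ext
        show algebraMap E F y⁻¹ * algebraMap E F y = 1
        rw [map_inv₀, inv_mul_cancel₀ hy0]
      have h1 := congrArg (ρ i) hmul
      rw [map_mul, map_one] at h1
      exact eq_inv_of_mul_eq_one_left h1

theorem mem_towerResField (H : SqueezeSetup Ov O ρ₀ ρ) (i : ι) (β : Fk i) :
    β ∈ towerResField E H i ↔
      ∃ (y : E) (hy : algebraMap E F y ∈ O i), ρ i ⟨algebraMap E F y, hy⟩ = β := Iff.rfl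

/-- the residue map of the restriction, with values in its residue field. -/
def towerRes (H : SqueezeSetup Ov O ρ₀ ρ) (i : ι) :
    (O i).comap (algebraMap E F) →+* ↥(towerResField E H i) :=
  (horRes (E := E) (O i) (ρ i)).codRestrict (towerResField E H i).toSubring
    (fun y => ⟨(y : E), y.2, rfl⟩)

theorem coe_towerRes (H : SqueezeSetup Ov O ρ₀ ρ) (i : ι) (y : (O i).comap (algebraMap E F)) :
    ((towerRes H i y : ↥(towerResField E H i)) : Fk i) = ρ i ⟨algebraMap E F (y : E), y.2⟩ := rfl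

theorem towerRes_surjective (H : SqueezeSetup Ov O ρ₀ ρ) (i : ι) :
    Function.Surjective (towerRes (E := E) H i) := by
  rintro ⟨β, y, hy, rfl⟩
  exact ⟨⟨y, hy⟩, rfl⟩

/-- the setup of the restrictions to `E`, over `K₀`. -/
theorem squeezeSetup_bot (H : SqueezeSetup Ov O ρ₀ ρ)
    (hdist : Function.Injective fun i => (O i).comap (algebraMap E F)) :
    SqueezeSetup Ov (fun i => (O i).comap (algebraMap E F)) ρ₀ (fun i => towerRes (E := E) H i) where
  liesOver i := by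
    have h := H.liesOver i
    unfold LiesOverV at h ⊢
    rw [← h]
    ext a
    show algebraMap E F (algebraMap K₀ E a) ∈ O i ↔ algebraMap K₀ F a ∈ O i
    rw [← IsScalarTower.algebraMap_apply]
  injective := hdist
  surj₀ := H.surj₀
  ker₀ := H.ker₀
  ker i y hy := by
    apply Subtype.ext
    rw [coe_towerRes]
    show ρ i _ = 0
    apply H.ker i
    rw [ValuationSubring.mem_nonunits_iff] at hy ⊢
    have h1 : ((O i).comap (algebraMap E F)).valuation (y : E) < 1 := hy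
    by_contra hcon
    rw [not_lt] at hcon
    have hv : (O i).valuation (algebraMap E F (y : E)) = 1 :=
      le_antisymm ((ValuationSubring.valuation_le_one_iff _ _).mpr y.2) hcon
    have hy0 : (y : E) ≠ 0 := by
      intro h0
      rw [h0, map_zero, map_zero] at hv
      exact zero_ne_one hv
    have hinv : (y : E)⁻¹ ∈ (O i).comap (algebraMap E F) := by
      show algebraMap E F (y : E)⁻¹ ∈ O i
      rw [map_inv₀, ← ValuationSubring.valuation_le_one_iff, map_inv₀, hv, inv_one]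
    have h2 : ((O i).comap (algebraMap E F)).valuation (y : E)⁻¹ ≤ 1 :=
      (ValuationSubring.valuation_le_one_iff _ _).mpr hinv
    rw [map_inv₀] at h2
    have h3 : (1 : _) ≤ ((O i).comap (algebraMap E F)).valuation (y : E) := by
      have hne : ((O i).comap (algebraMap E F)).valuation (y : E) ≠ 0 := by
        rw [Ne, map_eq_zero]
        exact hy0
      exact (inv_le_one₀ (zero_lt_iff.mpr hne)).mp h2
    exact absurd h1 (not_lt.mpr h3)
  compat i a ha ha' := by
    apply Subtype.ext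
    have ha'' : algebraMap K₀ F a ∈ O i := ((H.liesOver i).mem_iff _).mpr ha
    have h1 : ((algebraMap k₀ ↥(towerResField E H i) (ρ₀ ⟨a, ha⟩) : ↥(towerResField E H i)) :
        Fk i) = algebraMap k₀ (Fk i) (ρ₀ ⟨a, ha⟩) := rfl
    rw [h1, ← H.compat i a ha ha'']
    show ρ i ⟨algebraMap E F (algebraMap K₀ E a), ha'⟩ = ρ i ⟨algebraMap K₀ F a, ha''⟩
    congr 1
    apply Subtype.ext
    exact (IsScalarTower.algebraMap_apply K₀ E F _).symm
  consts := H.consts

/-- the setup of `O i` over its restriction to `E`. -/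
theorem squeezeSetup_top (H : SqueezeSetup Ov O ρ₀ ρ) (i : ι) :
    SqueezeSetup (ι := Unit) (Fk := fun _ => Fk i) ((O i).comap (algebraMap E F))
      (fun _ => O i) (towerRes (E := E) H i) (fun _ => ρ i) where
  liesOver _ := rfl
  injective _ _ _ := Subsingleton.elim _ _
  surj₀ := towerRes_surjective H i
  ker₀ y hy := mem_nonunits_of_map_eq_zero _ y hy
  ker _ y hy := H.ker i y hy
  compat _ a ha ha' := rfl
  consts := by
    obtain ⟨c, hc, hcu⟩ := H.consts
    have hover : LiesOverV Ov ((O i).comap (algebraMap E F)) := by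
      have h := H.liesOver i
      unfold LiesOverV at h ⊢
      rw [← h]
      ext a
      show algebraMap E F (algebraMap K₀ E a) ∈ O i ↔ algebraMap K₀ F a ∈ O i
      rw [← IsScalarTower.algebraMap_apply]
    refine ⟨fun m => algebraMap K₀ E (c m), fun m => (hover.mem_iff _).mpr (hc m), ?_⟩
    intro m m' hmm
    rw [← map_sub, hover.nonunits_iff]
    exact hcu m m' hmm

/-- **the tower squeeze**: if the `O i` are complete over `Ov` (`[F : K₀] ≤ ∑ [Fk i : k₀]`) and
have pairwise distinct restrictions to `E`, then `[Fk i : R i] = [F : E]` for the residue field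
`R i` of the restriction of `O i` to `E`. -/
theorem tower_squeeze [FiniteDimensional K₀ F] [∀ i, Module.Finite k₀ (Fk i)]
    (H : SqueezeSetup Ov O ρ₀ ρ)
    (hdist : Function.Injective fun i => (O i).comap (algebraMap E F))
    (hsurj : ∀ i, Function.Surjective (ρ i))
    (hcomplete : Module.finrank K₀ F ≤ ∑ i, Module.finrank k₀ (Fk i)) (i : ι) :
    Module.finrank ↥(towerResField E H i) (Fk i) = Module.finrank E F := by
  classical
  have hFE : FiniteDimensional E F := FiniteDimensional.right K₀ E F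
  have hEK : FiniteDimensional K₀ E := FiniteDimensional.left K₀ E F
  have hfinR : ∀ j, Module.Finite ↥(towerResField E H j) (Fk j) := fun j =>
    Module.Finite.of_restrictScalars_finite k₀ ↥(towerResField E H j) (Fk j)
  -- (a) the top inequalities
  have ha : ∀ j, Module.finrank ↥(towerResField E H j) (Fk j) ≤ Module.finrank E F := by
    intro j
    have hfin : ∀ _u : Unit, Module.Finite ↥(towerResField E H j)
        ↥(⊤ : Submodule ↥(towerResField E H j) (Fk j)) := fun _ => inferInstance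
    have h := sum_finrank_le_of_range (ι := Unit) (Fk := fun _ => Fk j) (inst := hfin)
      (squeezeSetup_top (E := E) H j) (fun _ => ⊤) (fun _ β _ => hsurj j β)
    simpa using h
  -- (b) the bottom inequality
  have hb : ∑ j, Module.finrank k₀ ↥(towerResField E H j) ≤ Module.finrank K₀ E := by
    have hfin : ∀ j, Module.Finite k₀ ↥(⊤ : Submodule k₀ ↥(towerResField E H j)) :=
      fun _ => inferInstance
    have h := sum_finrank_le_of_range (inst := hfin) (squeezeSetup_bot (E := E) H hdist)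
      (fun _ => ⊤) (fun j β _ => towerRes_surjective H j β)
    simpa using h
  -- (c), (d) the towers
  have hc : ∀ j, Module.finrank k₀ ↥(towerResField E H j) *
      Module.finrank ↥(towerResField E H j) (Fk j) = Module.finrank k₀ (Fk j) := fun j =>
    Module.finrank_mul_finrank k₀ ↥(towerResField E H j) (Fk j)
  have hd : Module.finrank K₀ E * Module.finrank E F = Module.finrank K₀ F :=
    Module.finrank_mul_finrank K₀ E F
  have hpos : ∀ j, 0 < Module.finrank k₀ ↥(towerResField E H j) := fun j => Module.finrank_pos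
  -- (e) arithmetic
  by_contra hne
  have hlt : Module.finrank ↥(towerResField E H i) (Fk i) < Module.finrank E F :=
    lt_of_le_of_ne (ha i) hne
  have h1 : ∑ j, Module.finrank k₀ (Fk j) <
      ∑ j, Module.finrank k₀ ↥(towerResField E H j) * Module.finrank E F := by
    refine Finset.sum_lt_sum (fun j _ => ?_) ⟨i, Finset.mem_univ i, ?_⟩
    · rw [← hc j]
      exact Nat.mul_le_mul_left _ (ha j)
    · rw [← hc i]
      exact Nat.mul_lt_mul_of_pos_left hlt (hpos i)
  rw [← Finset.sum_mul] at h1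
  have h2 : (∑ j, Module.finrank k₀ ↥(towerResField E H j)) * Module.finrank E F ≤
      Module.finrank K₀ E * Module.finrank E F := Nat.mul_le_mul_right _ hb
  omega

/-- **NORM-HOR, tower form**: under the hypotheses of the tower squeeze, the norm of an integral
element reduces to the norm of its reduction over the residue field of the restriction. -/
theorem normRed_tower [FiniteDimensional K₀ F] [∀ i, Module.Finite k₀ (Fk i)]
    (H : SqueezeSetup Ov O ρ₀ ρ)
    (hdist : Function.Injective fun i => (O i).comap (algebraMap E F))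
    (hsurj : ∀ i, Function.Surjective (ρ i))
    (hcomplete : Module.finrank K₀ F ≤ ∑ i, Module.finrank k₀ (Fk i)) (i : ι)
    (t : F) (ht : t ∈ O i) :
    ∃ h : algebraMap E F (Algebra.norm E t) ∈ O i,
      ρ i ⟨algebraMap E F (Algebra.norm E t), h⟩ =
        algebraMap ↥(towerResField E H i) (Fk i)
          (Algebra.norm ↥(towerResField E H i) (ρ i ⟨t, ht⟩)) := by
  have hFE : FiniteDimensional E F := FiniteDimensional.right K₀ E F
  have hfinR : Module.Finite ↥(towerResField E H i) (Fk i) :=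
    Module.Finite.of_restrictScalars_finite k₀ ↥(towerResField E H i) (Fk i)
  refine normRed_hor (Ek := ↥(towerResField E H i)) (hsurj i) ?_ ?_
    (tower_squeeze H hdist hsurj hcomplete i).symm t ht
  · intro y hy
    exact H.ker i y ((ValuationSubring.coe_mem_nonunits_iff (A := O i)).mpr hy)
  · intro y hy
    exact ⟨⟨ρ i ⟨algebraMap E F y, hy⟩, y, hy, rfl⟩, rfl⟩

end Tower

end Fermat.Agent.S36
end
end MergeWrap_S36_Norm_HorTower

section MergeWrap_S36_Norm_HorSqueeze -- from S36/Norm/HorSqueeze.lean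

set_option autoImplicit false
set_option linter.style.haveILetI false
set_option linter.unusedSectionVars false
set_option synthInstance.maxHeartbeats 400000

noncomputable section

namespace Fermat.Agent.S36G

open ModularCurve AlgebraicCurve IntermediateField Fermat.Agent.F3 Fermat.Agent.F3G
  Fermat.Agent.GaussInt Fermat.Agent.Deuring Fermat.Agent.BadRed Fermat.Agent.HP
  Fermat.Agent.S36

local notation "Qb" => AlgebraicClosure ℚ

/-! ### the `SqueezeSetup` of a constant reduction -/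

section Base

variable {K F k Fk : Type*} [Field K] [Field F] [Algebra K F] [Field k] [Field Fk] [Algebra k Fk]

/-- a constant reduction `S` as a `SqueezeSetup` over the constants. -/
theorem hsq_base (S : ValSetup K F k Fk) [Infinite k] :
    SqueezeSetup (ι := Unit) (Fk := fun _ => Fk) S.A (fun _ => S.Ov) S.res (fun _ => S.ρ) where
  liesOver _ := by
    unfold LiesOverV
    ext c
    exact S.mem_Ov_iff c
  injective _ _ _ := Subsingleton.elim _ _
  surj₀ := S.res_surj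
  ker₀ y hy := mem_nonunits_of_map_eq_zero _ y hy
  ker _ y hy := by
    rw [S.ρ_eq_zero_iff]
    exact (ValuationSubring.coe_mem_nonunits_iff).mp hy
  compat _ a ha ha' := S.ρ_algebraMap a ha ha'
  consts := by
    classical
    let e : ℕ ↪ k := Infinite.natEmbedding k
    choose c hc using fun m => S.res_surj (e m)
    refine ⟨fun m => (c m : K), fun m => (c m).2, fun m m' hmm' hnu => ?_⟩
    have h1 : ((c m - c m' : S.A) : K) ∈ S.A.nonunits := hnu
    have h2 : ¬ IsUnit (c m - c m') := (ValuationSubring.coe_mem_nonunits_iff).mp h1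
    have h3 : S.res (c m - c m') ≠ 0 := by
      rw [map_sub, hc, hc, sub_ne_zero]
      exact fun h => hmm' (e.injective h)
    apply h3
    -- a non-unit of `A` is a non-unit of `Ov`, hence has residue `0`
    have hmem : algebraMap K F ((c m - c m' : S.A) : K) ∈ S.Ov :=
      (S.mem_Ov_iff _).mpr (c m - c m').2
    have hnonunit : ¬ IsUnit (⟨algebraMap K F ((c m - c m' : S.A) : K), hmem⟩ : S.Ov) := by
      intro hU
      apply h2
      have hv : S.Ov.valuation (algebraMap K F ((c m - c m' : S.A) : K)) = 1 :=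
        (ValuationSubring.valuation_eq_one_iff S.Ov _).mp hU
      have hne : ((c m - c m' : S.A) : K) ≠ 0 := by
        intro h0
        rw [h0, map_zero, map_zero] at hv
        exact zero_ne_one hv
      have hinv : (((c m - c m' : S.A) : K))⁻¹ ∈ S.A := by
        rw [← S.mem_Ov_iff, map_inv₀, ← ValuationSubring.valuation_le_one_iff, map_inv₀, hv,
          inv_one]
      refine ⟨⟨c m - c m', ⟨_, hinv⟩, ?_, ?_⟩, rfl⟩
      · apply Subtype.ext
        exact mul_inv_cancel₀ hne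
      · apply Subtype.ext
        exact inv_mul_cancel₀ hne
    have hz := (S.ρ_eq_zero_iff _).mpr hnonunit
    rw [S.ρ_algebraMap _ (c m - c m').2 hmem] at hz
    exact (map_eq_zero_iff _ (algebraMap k Fk).injective).mp hz

end Base

/-! ### the abstract squeeze over the middle copy -/

section Abs

variable {K F₀ F₁ F k Fk : Type*} [Field K] [Field F₀] [Field F₁] [Field F]
  [Algebra K F₀] [Algebra K F] [Field k] [Field Fk] [Algebra k Fk]
  [Algebra F₀ F₁] [Algebra F₁ F] [Algebra F₀ F] [IsScalarTower F₀ F₁ F] [IsScalarTower K F₀ F]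

/-- the residue field of the restriction of `S` to `F₀`, as an intermediate field of `Fk / k`. -/
def hsqRes0 (S : ValSetup K F k Fk) [Infinite k] : IntermediateField k Fk :=
  towerResField F₀ (hsq_base S) ()

theorem mem_hsqRes0 (S : ValSetup K F k Fk) [Infinite k] (β : Fk) :
    β ∈ hsqRes0 (F₀ := F₀) S ↔
      ∃ (y : F₀) (hy : algebraMap F₀ F y ∈ S.Ov), S.ρ ⟨algebraMap F₀ F y, hy⟩ = β := Iff.rfl

/-- `S` as a `SqueezeSetup` over its restriction to `F₀`. -/
theorem hsq_mid (S : ValSetup K F k Fk) [Infinite k] :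
    SqueezeSetup (ι := Unit) (Fk := fun _ => Fk) (S.Ov.comap (algebraMap F₀ F))
      (fun _ => S.Ov) (towerRes (E := F₀) (hsq_base S) ()) (fun _ => S.ρ) :=
  squeezeSetup_top (E := F₀) (hsq_base S) ()

/-- the residue field of `S | F₀` is `k(Y)` as soon as it is contained in `k(Y)` and contains
`Y`. -/
theorem hsqRes0_eq (S : ValSetup K F k Fk) [Infinite k] (Yf : Fk)
    (hresY : ∀ g : F₀, algebraMap F₀ F g ∈ S.Ov → S.red (algebraMap F₀ F g) ∈ k⟮Yf⟯)
    (hY : ∃ y₀ : F₀, algebraMap F₀ F y₀ ∈ S.Ov ∧ S.red (algebraMap F₀ F y₀) = Yf) :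
    hsqRes0 (F₀ := F₀) S = k⟮Yf⟯ := by
  apply le_antisymm
  · rintro β ⟨y, hy, rfl⟩
    rw [← S.red_of_mem hy]
    exact hresY y hy
  · rw [IntermediateField.adjoin_simple_le_iff]
    obtain ⟨y₀, hy₀, hy₀'⟩ := hY
    exact ⟨y₀, hy₀, by rw [← S.red_of_mem hy₀, hy₀']⟩

/-- **(SQUEEZE, abstract)** the residue field of `S | F₁` is contained in `k(X)`. -/
theorem hsq_residue_mem (S : ValSetup K F k Fk) [Infinite k] [FiniteDimensional F₀ F]
    (Yf X : Fk)
    (hresY : ∀ g : F₀, algebraMap F₀ F g ∈ S.Ov → S.red (algebraMap F₀ F g) ∈ k⟮Yf⟯)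
    (hY : ∃ y₀ : F₀, algebraMap F₀ F y₀ ∈ S.Ov ∧ S.red (algebraMap F₀ F y₀) = Yf)
    [FiniteDimensional k⟮Yf⟯ Fk] (hdegY : Module.finrank F₀ F ≤ Module.finrank k⟮Yf⟯ Fk)
    (hX : ∃ w : F₁, algebraMap F₁ F w ∈ S.Ov ∧ S.red (algebraMap F₁ F w) = X)
    [FiniteDimensional k⟮X⟯ Fk] (hdegX : Module.finrank k⟮X⟯ Fk = Module.finrank F₁ F)
    (y : F₁) (hy : algebraMap F₁ F y ∈ S.Ov) : S.red (algebraMap F₁ F y) ∈ k⟮X⟯ := by
  classical
  have hR0 := hsqRes0_eq (F₀ := F₀) S Yf hresY hY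
  -- the setup over the middle copy
  have H := hsq_mid (F₀ := F₀) S
  haveI hfin0 : Module.Finite ↥(towerResField F₀ (hsq_base S) ()) Fk := by
    have : Module.Finite ↥(hsqRes0 (F₀ := F₀) S) Fk := by
      rw [hR0]
      infer_instance
    exact this
  have hcomplete : Module.finrank F₀ F ≤
      ∑ _i : Unit, Module.finrank ↥(towerResField F₀ (hsq_base S) ()) Fk := by
    have h1 : Module.finrank ↥(hsqRes0 (F₀ := F₀) S) Fk = Module.finrank k⟮Yf⟯ Fk := by
      rw [hR0]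
    have h2 : Module.finrank ↥(towerResField F₀ (hsq_base S) ()) Fk =
        Module.finrank k⟮Yf⟯ Fk := h1
    simpa [h2] using hdegY
  haveI : ∀ _i : Unit, Module.Finite ↥(towerResField F₀ (hsq_base S) ()) Fk := fun _ => hfin0
  have hsq := tower_squeeze (E := F₁) (Fk := fun _ : Unit => Fk) H
    (fun _ _ _ => Subsingleton.elim _ _) (fun _ => S.ρ_surj) hcomplete ()
  -- the residue field of the restriction to `F₁`, over `k`
  set R := towerResField F₁ H () with hRdef
  let R' : IntermediateField k Fk := R.restrictScalars k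
  have hle : k⟮X⟯ ≤ R' := by
    rw [IntermediateField.adjoin_simple_le_iff]
    obtain ⟨w, hw, hwX⟩ := hX
    exact ⟨w, hw, by rw [← S.red_of_mem hw, hwX]⟩
  have hrank : Module.finrank k⟮X⟯ Fk = Module.finrank ↥R' Fk := by
    rw [hdegX]
    exact hsq.symm
  have heq : k⟮X⟯ = R' := IntermediateField.eq_of_le_of_finrank_eq' hle hrank
  rw [heq]
  exact ⟨y, hy, (S.red_of_mem hy).symm⟩

/-- **(N3), abstract**: the norm formula over the restriction of `S` to `F₁`. -/
theorem hsq_normRed (S : ValSetup K F k Fk) [Infinite k] [FiniteDimensional F₀ F]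
    (Yf X : Fk)
    (hresY : ∀ g : F₀, algebraMap F₀ F g ∈ S.Ov → S.red (algebraMap F₀ F g) ∈ k⟮Yf⟯)
    (hY : ∃ y₀ : F₀, algebraMap F₀ F y₀ ∈ S.Ov ∧ S.red (algebraMap F₀ F y₀) = Yf)
    [FiniteDimensional k⟮Yf⟯ Fk] (hdegY : Module.finrank F₀ F ≤ Module.finrank k⟮Yf⟯ Fk)
    (hX : ∃ w : F₁, algebraMap F₁ F w ∈ S.Ov ∧ S.red (algebraMap F₁ F w) = X)
    [FiniteDimensional k⟮X⟯ Fk] (hdegX : Module.finrank k⟮X⟯ Fk = Module.finrank F₁ F)
    (t : F) (ht : t ∈ S.Ov) :
    algebraMap F₁ F (Algebra.norm F₁ t) ∈ S.Ov ∧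
      S.red (algebraMap F₁ F (Algebra.norm F₁ t)) =
        algebraMap k⟮X⟯ Fk (Algebra.norm k⟮X⟯ (S.red t)) := by
  haveI : Module.Finite F₁ F := FiniteDimensional.right F₀ F₁ F
  have hR1 : ∀ (y : F₁) (hy : algebraMap F₁ F y ∈ S.Ov),
      S.ρ ⟨algebraMap F₁ F y, hy⟩ ∈ (algebraMap k⟮X⟯ Fk).range := by
    intro y hy
    have h := hsq_residue_mem (F₀ := F₀) S Yf X hresY hY hdegY hX hdegX y hy
    rw [S.red_of_mem hy] at h
    exact ⟨⟨_, h⟩, rfl⟩
  have hker : ∀ y : S.Ov, ¬ IsUnit y → S.ρ y = 0 := fun y hy => (S.ρ_eq_zero_iff y).mpr hy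
  obtain ⟨h, hh⟩ := normRed_hor (Ek := k⟮X⟯) S.ρ_surj hker hR1 hdegX.symm t ht
  refine ⟨h, ?_⟩
  rw [S.red_of_mem h, hh, S.red_of_mem ht]

/-- the residue field of `S | F₀` contains `k(X)` for every residue `X` of an element of `F₀`. -/
theorem hsq_residue_surj (S : ValSetup K F k Fk) [Infinite k] (X : Fk)
    (hX : ∃ w : F₀, algebraMap F₀ F w ∈ S.Ov ∧ S.red (algebraMap F₀ F w) = X)
    (β : Fk) (hβ : β ∈ k⟮X⟯) :
    ∃ y : F₀, algebraMap F₀ F y ∈ S.Ov ∧ S.red (algebraMap F₀ F y) = β := by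
  have hle : k⟮X⟯ ≤ hsqRes0 (F₀ := F₀) S := by
    rw [IntermediateField.adjoin_simple_le_iff]
    obtain ⟨w, hw, hwX⟩ := hX
    exact ⟨w, hw, by rw [← S.red_of_mem hw, hwX]⟩
  obtain ⟨y, hy, hyβ⟩ := hle hβ
  exact ⟨y, hy, by rw [S.red_of_mem hy, hyβ]⟩

end Abs

/-! ### the modular wiring: `w_P` over `α F₁` and `β F₁` -/

section Modular

variable {M₀ q : ℕ} [NeZero M₀] [NeZero q] {A : ValuationSubring Qb}
  {S0 : Fermat.Agent.S18Key.RedSetup Qb (FBar M₀) (IsLocalRing.ResidueField A)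
    ↥(modularFunctionFieldFullC (IsLocalRing.ResidueField A) M₀)}
  {P : Place (IsLocalRing.ResidueField A)
    ↥(modularFunctionFieldFullC (IsLocalRing.ResidueField A) M₀)}
  {FkP : Type} [Field FkP] [Algebra (IsLocalRing.ResidueField A) FkP]

/-- `q + 1 ≠ 0` in the residue field. -/
theorem wpsq_succ_ne_zero (hq : q.Prime) (hA : A.LiesOverPrime q) :
    ((q + 1 : ℕ) : IsLocalRing.ResidueField A) ≠ 0 := by
  haveI : Fact q.Prime := ⟨hq⟩
  haveI := Fermat.Agent.FrobTrace.charP_residueField A hA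
  rw [Nat.cast_add, CharP.cast_eq_zero (IsLocalRing.ResidueField A) q, zero_add, Nat.cast_one]
  exact one_ne_zero

/-- `W` lies in `α F₁`. -/
theorem wpsq_W_eq (t : FBar M₀) (a ϖ : Qb) :
    heckeAlphaBar Qb (M₀ * q) q
        ((heckeAlphaBar Qb M₀ q t - algebraMap Qb (FBar (M₀ * q)) a) /
          algebraMap Qb (FBar (M₀ * q)) ϖ) = wpW M₀ q t a ϖ := by
  rw [map_div₀, map_sub, AlgHom.commutes, AlgHom.commutes]
  rfl

/-- `Zc` lies in `β F₁`. -/
theorem wpsq_Z_eq (t : FBar M₀) (a ϖ : Qb) :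
    heckeBetaBar Qb (M₀ * q) q
        ((heckeBetaBar Qb M₀ q t - algebraMap Qb (FBar (M₀ * q)) a) /
          algebraMap Qb (FBar (M₀ * q)) ϖ) = wpZ M₀ q t a ϖ := by
  rw [map_div₀, map_sub, AlgHom.commutes, AlgHom.commutes]
  rfl

/-- `Y` lies in `ι₁ F₀`. -/
theorem wpsq_Y_eq (t : FBar M₀) (a ϖ : Qb) :
    wpdIota1 M₀ q
        ((t - algebraMap Qb (FBar M₀) (a ^ q)) / algebraMap Qb (FBar M₀) (ϖ ^ q)) =
      wpY M₀ q t a ϖ := by
  rw [map_div₀, map_sub, AlgHom.commutes, AlgHom.commutes]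
  rfl

variable (O : WPOut M₀ q A S0 P FkP)

/-- **(SQUEEZE, π₁)** the residue field of `w_P` restricted to `α F₁` is contained in `k(X₁)`
(hence equal to it: `X₁ = red W`). -/
theorem wpsq_alpha_mem (hq : q.Prime) (hqM : ¬ q ∣ M₀) (hA : A.LiesOverPrime q)
    (y : FBar (M₀ * q)) (hy : heckeAlphaBar Qb (M₀ * q) q y ∈ O.S.Ov) :
    O.S.red (heckeAlphaBar Qb (M₀ * q) q y) ∈ (IsLocalRing.ResidueField A)⟮O.H.X1⟯ := by
  haveI := Fermat.Agent.FrobTrace.isAlgClosed_residueField A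
  haveI : Infinite (IsLocalRing.ResidueField A) := IsAlgClosed.instInfinite
  have hq1 := wpsq_succ_ne_zero (A := A) hq hA
  letI a01 : Algebra (FBar M₀) (FBar (M₀ * q)) := algebraAlong (heckeBetaBar Qb M₀ q)
  letI a12 : Algebra (FBar (M₀ * q)) (FBar (M₀ * q * q)) :=
    algebraAlong (heckeAlphaBar Qb (M₀ * q) q)
  letI a02 : Algebra (FBar M₀) (FBar (M₀ * q * q)) := algebraAlong (wpdIota1 M₀ q)
  haveI : IsScalarTower (FBar M₀) (FBar (M₀ * q)) (FBar (M₀ * q * q)) :=
    IsScalarTower.of_algebraMap_eq fun x => rfl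
  haveI : IsScalarTower Qb (FBar M₀) (FBar (M₀ * q * q)) :=
    IsScalarTower.of_algebraMap_eq fun c => ((wpdIota1 M₀ q).commutes c).symm
  obtain ⟨hfd, hrank⟩ := wpd_finrank_iota1 M₀ q hq hqM
  haveI : FiniteDimensional (FBar M₀) (FBar (M₀ * q * q)) := hfd
  haveI := O.H.finiteDimensional_Yf hq1
  haveI := O.H.finiteDimensional_X1
  obtain ⟨-, hα⟩ := Fermat.Agent.S36N.finrank_alpha (N := M₀ * q) (ℓ := q) hq (dvd_mul_left q M₀)
  refine hsq_residue_mem (F₀ := FBar M₀) (F₁ := FBar (M₀ * q)) O.S O.H.Yf O.H.X1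
    (fun g hg => O.res_Y g hg) ?_ ?_ ?_ ?_ y hy
  · refine ⟨(O.t - algebraMap Qb (FBar M₀) (O.a ^ q)) / algebraMap Qb (FBar M₀) (O.ϖ ^ q), ?_, ?_⟩
    · show wpdIota1 M₀ q _ ∈ O.S.Ov
      rw [wpsq_Y_eq]
      exact O.Y_mem
    · show O.S.red (wpdIota1 M₀ q _) = O.H.Yf
      rw [wpsq_Y_eq]
      exact O.red_Y
  · rw [hrank, O.H.finrank_Yf hq1]
  · refine ⟨(heckeAlphaBar Qb M₀ q O.t - algebraMap Qb (FBar (M₀ * q)) O.a) /
      algebraMap Qb (FBar (M₀ * q)) O.ϖ, ?_, ?_⟩
    · show heckeAlphaBar Qb (M₀ * q) q _ ∈ O.S.Ov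
      rw [wpsq_W_eq]
      exact O.W_mem
    · show O.S.red (heckeAlphaBar Qb (M₀ * q) q _) = O.H.X1
      rw [wpsq_W_eq]
      exact O.red_W
  · rw [O.H.finrank_X1 hq1]
    exact hα.symm

/-- **(N3)** the norm formula for `w_P` over `α F₁`:
`red_w (α (N_α t)) = N_{k(H_P) / k(X₁)} (red_w t)` for `t ∈ O_w`. -/
theorem wpsq_normRed_alpha (hq : q.Prime) (hqM : ¬ q ∣ M₀) (hA : A.LiesOverPrime q)
    (t : FBar (M₀ * q * q)) (ht : t ∈ O.S.Ov) :
    heckeAlphaBar Qb (M₀ * q) q (normAlong (heckeAlphaBar Qb (M₀ * q) q) t) ∈ O.S.Ov ∧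
      O.S.red (heckeAlphaBar Qb (M₀ * q) q (normAlong (heckeAlphaBar Qb (M₀ * q) q) t)) =
        algebraMap (IsLocalRing.ResidueField A)⟮O.H.X1⟯ FkP
          (Algebra.norm (IsLocalRing.ResidueField A)⟮O.H.X1⟯ (O.S.red t)) := by
  haveI := Fermat.Agent.FrobTrace.isAlgClosed_residueField A
  haveI : Infinite (IsLocalRing.ResidueField A) := IsAlgClosed.instInfinite
  have hq1 := wpsq_succ_ne_zero (A := A) hq hA
  letI a01 : Algebra (FBar M₀) (FBar (M₀ * q)) := algebraAlong (heckeBetaBar Qb M₀ q)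
  letI a12 : Algebra (FBar (M₀ * q)) (FBar (M₀ * q * q)) :=
    algebraAlong (heckeAlphaBar Qb (M₀ * q) q)
  letI a02 : Algebra (FBar M₀) (FBar (M₀ * q * q)) := algebraAlong (wpdIota1 M₀ q)
  haveI : IsScalarTower (FBar M₀) (FBar (M₀ * q)) (FBar (M₀ * q * q)) :=
    IsScalarTower.of_algebraMap_eq fun x => rfl
  haveI : IsScalarTower Qb (FBar M₀) (FBar (M₀ * q * q)) :=
    IsScalarTower.of_algebraMap_eq fun c => ((wpdIota1 M₀ q).commutes c).symm
  obtain ⟨hfd, hrank⟩ := wpd_finrank_iota1 M₀ q hq hqM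
  haveI : FiniteDimensional (FBar M₀) (FBar (M₀ * q * q)) := hfd
  haveI := O.H.finiteDimensional_Yf hq1
  haveI := O.H.finiteDimensional_X1
  obtain ⟨-, hα⟩ := Fermat.Agent.S36N.finrank_alpha (N := M₀ * q) (ℓ := q) hq (dvd_mul_left q M₀)
  refine hsq_normRed (F₀ := FBar M₀) (F₁ := FBar (M₀ * q)) O.S O.H.Yf O.H.X1
    (fun g hg => O.res_Y g hg) ?_ ?_ ?_ ?_ t ht
  · refine ⟨(O.t - algebraMap Qb (FBar M₀) (O.a ^ q)) / algebraMap Qb (FBar M₀) (O.ϖ ^ q), ?_, ?_⟩
    · show wpdIota1 M₀ q _ ∈ O.S.Ov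
      rw [wpsq_Y_eq]
      exact O.Y_mem
    · show O.S.red (wpdIota1 M₀ q _) = O.H.Yf
      rw [wpsq_Y_eq]
      exact O.red_Y
  · rw [hrank, O.H.finrank_Yf hq1]
  · refine ⟨(heckeAlphaBar Qb M₀ q O.t - algebraMap Qb (FBar (M₀ * q)) O.a) /
      algebraMap Qb (FBar (M₀ * q)) O.ϖ, ?_, ?_⟩
    · show heckeAlphaBar Qb (M₀ * q) q _ ∈ O.S.Ov
      rw [wpsq_W_eq]
      exact O.W_mem
    · show O.S.red (heckeAlphaBar Qb (M₀ * q) q _) = O.H.X1
      rw [wpsq_W_eq]
      exact O.red_W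
  · rw [O.H.finrank_X1 hq1]
    exact hα.symm

/-- **(SQUEEZE, π₂)** the residue field of `w_P` restricted to `β F₁` is contained in `k(X₂)`
(hence equal to it: `X₂ = red Zc`). -/
theorem wpsq_beta_mem (hq : q.Prime) (hqM : ¬ q ∣ M₀) (hA : A.LiesOverPrime q)
    (y : FBar (M₀ * q)) (hy : heckeBetaBar Qb (M₀ * q) q y ∈ O.S.Ov) :
    O.S.red (heckeBetaBar Qb (M₀ * q) q y) ∈ (IsLocalRing.ResidueField A)⟮O.H.X2⟯ := by
  haveI := Fermat.Agent.FrobTrace.isAlgClosed_residueField A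
  haveI : Infinite (IsLocalRing.ResidueField A) := IsAlgClosed.instInfinite
  have hq1 := wpsq_succ_ne_zero (A := A) hq hA
  letI a01 : Algebra (FBar M₀) (FBar (M₀ * q)) := algebraAlong (heckeAlphaBar Qb M₀ q)
  letI a12 : Algebra (FBar (M₀ * q)) (FBar (M₀ * q * q)) :=
    algebraAlong (heckeBetaBar Qb (M₀ * q) q)
  letI a02 : Algebra (FBar M₀) (FBar (M₀ * q * q)) := algebraAlong (wpdIota1 M₀ q)
  haveI : IsScalarTower (FBar M₀) (FBar (M₀ * q)) (FBar (M₀ * q * q)) :=
    IsScalarTower.of_algebraMap_eq fun x => AlgHom.congr_fun (wpdIota1_eq_beta_alpha M₀ q) x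
  haveI : IsScalarTower Qb (FBar M₀) (FBar (M₀ * q * q)) :=
    IsScalarTower.of_algebraMap_eq fun c => ((wpdIota1 M₀ q).commutes c).symm
  obtain ⟨hfd, hrank⟩ := wpd_finrank_iota1 M₀ q hq hqM
  haveI : FiniteDimensional (FBar M₀) (FBar (M₀ * q * q)) := hfd
  haveI := O.H.finiteDimensional_Yf hq1
  haveI := O.H.finiteDimensional_X2 hq1
  have hM0 : 0 < M₀ := Nat.pos_of_ne_zero (NeZero.ne M₀)
  have hcop : Nat.Coprime q M₀ := (Nat.Prime.coprime_iff_not_dvd hq).mpr hqM
  obtain ⟨D₁, h1Q, h1R⟩ := Fermat.Agent.AtkinLehner.ALData.exists_of_coprime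
    (Q := q) (R := M₀) hq.pos hM0 hcop
  obtain ⟨D₂, h2Q, h2R⟩ := Fermat.Agent.AtkinLehner.ALData.exists_of_coprime
    (Q := q * q) (R := M₀) (Nat.mul_pos hq.pos hq.pos) hM0 (Nat.Coprime.mul_left hcop hcop)
  obtain ⟨-, hβ⟩ := Fermat.Agent.S36N.finrank_beta (N := M₀ * q) (ℓ := q) hq
    (dvd_mul_left q M₀) D₁ D₂ (by rw [h2Q, h1Q]) (by rw [h2R, h1R])
    (by rw [h1Q, h1R, mul_comm]) (by rw [h2Q, h2R]; ring)
  refine hsq_residue_mem (F₀ := FBar M₀) (F₁ := FBar (M₀ * q)) O.S O.H.Yf O.H.X2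
    (fun g hg => O.res_Y g hg) ?_ ?_ ?_ ?_ y hy
  · refine ⟨(O.t - algebraMap Qb (FBar M₀) (O.a ^ q)) / algebraMap Qb (FBar M₀) (O.ϖ ^ q), ?_, ?_⟩
    · show wpdIota1 M₀ q _ ∈ O.S.Ov
      rw [wpsq_Y_eq]
      exact O.Y_mem
    · show O.S.red (wpdIota1 M₀ q _) = O.H.Yf
      rw [wpsq_Y_eq]
      exact O.red_Y
  · rw [hrank, O.H.finrank_Yf hq1]
  · refine ⟨(heckeBetaBar Qb M₀ q O.t - algebraMap Qb (FBar (M₀ * q)) O.a) /
      algebraMap Qb (FBar (M₀ * q)) O.ϖ, ?_, ?_⟩
    · show heckeBetaBar Qb (M₀ * q) q _ ∈ O.S.Ov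
      rw [wpsq_Z_eq]
      exact O.Z_mem
    · show O.S.red (heckeBetaBar Qb (M₀ * q) q _) = O.H.X2
      rw [wpsq_Z_eq]
      exact O.red_Z
  · rw [O.H.finrank_X2 hq1]
    exact hβ.symm

/-- **(N3')** the norm formula for `w_P` over `β F₁`:
`red_w (β (N_β t)) = N_{k(H_P) / k(X₂)} (red_w t)` for `t ∈ O_w`. -/
theorem wpsq_normRed_beta (hq : q.Prime) (hqM : ¬ q ∣ M₀) (hA : A.LiesOverPrime q)
    (t : FBar (M₀ * q * q)) (ht : t ∈ O.S.Ov) :
    heckeBetaBar Qb (M₀ * q) q (normAlong (heckeBetaBar Qb (M₀ * q) q) t) ∈ O.S.Ov ∧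
      O.S.red (heckeBetaBar Qb (M₀ * q) q (normAlong (heckeBetaBar Qb (M₀ * q) q) t)) =
        algebraMap (IsLocalRing.ResidueField A)⟮O.H.X2⟯ FkP
          (Algebra.norm (IsLocalRing.ResidueField A)⟮O.H.X2⟯ (O.S.red t)) := by
  haveI := Fermat.Agent.FrobTrace.isAlgClosed_residueField A
  haveI : Infinite (IsLocalRing.ResidueField A) := IsAlgClosed.instInfinite
  have hq1 := wpsq_succ_ne_zero (A := A) hq hA
  letI a01 : Algebra (FBar M₀) (FBar (M₀ * q)) := algebraAlong (heckeAlphaBar Qb M₀ q)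
  letI a12 : Algebra (FBar (M₀ * q)) (FBar (M₀ * q * q)) :=
    algebraAlong (heckeBetaBar Qb (M₀ * q) q)
  letI a02 : Algebra (FBar M₀) (FBar (M₀ * q * q)) := algebraAlong (wpdIota1 M₀ q)
  haveI : IsScalarTower (FBar M₀) (FBar (M₀ * q)) (FBar (M₀ * q * q)) :=
    IsScalarTower.of_algebraMap_eq fun x => AlgHom.congr_fun (wpdIota1_eq_beta_alpha M₀ q) x
  haveI : IsScalarTower Qb (FBar M₀) (FBar (M₀ * q * q)) :=
    IsScalarTower.of_algebraMap_eq fun c => ((wpdIota1 M₀ q).commutes c).symm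
  obtain ⟨hfd, hrank⟩ := wpd_finrank_iota1 M₀ q hq hqM
  haveI : FiniteDimensional (FBar M₀) (FBar (M₀ * q * q)) := hfd
  haveI := O.H.finiteDimensional_Yf hq1
  haveI := O.H.finiteDimensional_X2 hq1
  have hM0 : 0 < M₀ := Nat.pos_of_ne_zero (NeZero.ne M₀)
  have hcop : Nat.Coprime q M₀ := (Nat.Prime.coprime_iff_not_dvd hq).mpr hqM
  obtain ⟨D₁, h1Q, h1R⟩ := Fermat.Agent.AtkinLehner.ALData.exists_of_coprime
    (Q := q) (R := M₀) hq.pos hM0 hcop
  obtain ⟨D₂, h2Q, h2R⟩ := Fermat.Agent.AtkinLehner.ALData.exists_of_coprime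
    (Q := q * q) (R := M₀) (Nat.mul_pos hq.pos hq.pos) hM0 (Nat.Coprime.mul_left hcop hcop)
  obtain ⟨-, hβ⟩ := Fermat.Agent.S36N.finrank_beta (N := M₀ * q) (ℓ := q) hq
    (dvd_mul_left q M₀) D₁ D₂ (by rw [h2Q, h1Q]) (by rw [h2R, h1R])
    (by rw [h1Q, h1R, mul_comm]) (by rw [h2Q, h2R]; ring)
  refine hsq_normRed (F₀ := FBar M₀) (F₁ := FBar (M₀ * q)) O.S O.H.Yf O.H.X2
    (fun g hg => O.res_Y g hg) ?_ ?_ ?_ ?_ t ht
  · refine ⟨(O.t - algebraMap Qb (FBar M₀) (O.a ^ q)) / algebraMap Qb (FBar M₀) (O.ϖ ^ q), ?_, ?_⟩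
    · show wpdIota1 M₀ q _ ∈ O.S.Ov
      rw [wpsq_Y_eq]
      exact O.Y_mem
    · show O.S.red (wpdIota1 M₀ q _) = O.H.Yf
      rw [wpsq_Y_eq]
      exact O.red_Y
  · rw [hrank, O.H.finrank_Yf hq1]
  · refine ⟨(heckeBetaBar Qb M₀ q O.t - algebraMap Qb (FBar (M₀ * q)) O.a) /
      algebraMap Qb (FBar (M₀ * q)) O.ϖ, ?_, ?_⟩
    · show heckeBetaBar Qb (M₀ * q) q _ ∈ O.S.Ov
      rw [wpsq_Z_eq]
      exact O.Z_mem
    · show O.S.red (heckeBetaBar Qb (M₀ * q) q _) = O.H.X2
      rw [wpsq_Z_eq]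
      exact O.red_Z
  · rw [O.H.finrank_X2 hq1]
    exact hβ.symm

/-- every element of `k(X₁)` is the residue of an element of `α F₁`. -/
theorem wpsq_alpha_surj (β : FkP) (hβ : β ∈ (IsLocalRing.ResidueField A)⟮O.H.X1⟯) :
    ∃ y : FBar (M₀ * q), heckeAlphaBar Qb (M₀ * q) q y ∈ O.S.Ov ∧
      O.S.red (heckeAlphaBar Qb (M₀ * q) q y) = β := by
  haveI := Fermat.Agent.FrobTrace.isAlgClosed_residueField A
  haveI : Infinite (IsLocalRing.ResidueField A) := IsAlgClosed.instInfinite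
  letI a12 : Algebra (FBar (M₀ * q)) (FBar (M₀ * q * q)) :=
    algebraAlong (heckeAlphaBar Qb (M₀ * q) q)
  haveI : IsScalarTower Qb (FBar (M₀ * q)) (FBar (M₀ * q * q)) :=
    IsScalarTower.of_algebraMap_eq fun c => ((heckeAlphaBar Qb (M₀ * q) q).commutes c).symm
  refine hsq_residue_surj (F₀ := FBar (M₀ * q)) O.S O.H.X1 ?_ β hβ
  refine ⟨(heckeAlphaBar Qb M₀ q O.t - algebraMap Qb (FBar (M₀ * q)) O.a) /
    algebraMap Qb (FBar (M₀ * q)) O.ϖ, ?_, ?_⟩
  · show heckeAlphaBar Qb (M₀ * q) q _ ∈ O.S.Ov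
    rw [wpsq_W_eq]
    exact O.W_mem
  · show O.S.red (heckeAlphaBar Qb (M₀ * q) q _) = O.H.X1
    rw [wpsq_W_eq]
    exact O.red_W

/-- every element of `k(X₂)` is the residue of an element of `β F₁`. -/
theorem wpsq_beta_surj (β : FkP) (hβ : β ∈ (IsLocalRing.ResidueField A)⟮O.H.X2⟯) :
    ∃ y : FBar (M₀ * q), heckeBetaBar Qb (M₀ * q) q y ∈ O.S.Ov ∧
      O.S.red (heckeBetaBar Qb (M₀ * q) q y) = β := by
  haveI := Fermat.Agent.FrobTrace.isAlgClosed_residueField A
  haveI : Infinite (IsLocalRing.ResidueField A) := IsAlgClosed.instInfinite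
  letI a12 : Algebra (FBar (M₀ * q)) (FBar (M₀ * q * q)) :=
    algebraAlong (heckeBetaBar Qb (M₀ * q) q)
  haveI : IsScalarTower Qb (FBar (M₀ * q)) (FBar (M₀ * q * q)) :=
    IsScalarTower.of_algebraMap_eq fun c => ((heckeBetaBar Qb (M₀ * q) q).commutes c).symm
  refine hsq_residue_surj (F₀ := FBar (M₀ * q)) O.S O.H.X2 ?_ β hβ
  refine ⟨(heckeBetaBar Qb M₀ q O.t - algebraMap Qb (FBar (M₀ * q)) O.a) /
    algebraMap Qb (FBar (M₀ * q)) O.ϖ, ?_, ?_⟩
  · show heckeBetaBar Qb (M₀ * q) q _ ∈ O.S.Ov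
    rw [wpsq_Z_eq]
    exact O.Z_mem
  · show O.S.red (heckeBetaBar Qb (M₀ * q) q _) = O.H.X2
    rw [wpsq_Z_eq]
    exact O.red_Z

end Modular

end Fermat.Agent.S36G
end
end MergeWrap_S36_Norm_HorSqueeze
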