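import Fermat.Agent.MU.S36.Norm.MidProd
import Fermat.Agent.MU.S36.Igusa.Lies

section MergeWrap_S36_Norm_MidSetup -- from S36/Norm/MidSetup.lean

set_option autoImplicit false
set_option linter.style.haveILetI false
set_option linter.unusedSectionVars false
set_option linter.unusedVariables false

/-!
# S36 (Carayol), block NORM: (N2) in residue form and in `ValSetup` form  (helper66)

`q` prime, `A ∣ q`, `k` the residue field of `A`, `F₁ = F_{M₀ q} ⊂ F = F_{M₀ q q}` (`α = π₁^*`),
`ε_b` (`b < q - 1`) the middle expansions.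

* `gaussRes_norm_alpha_mid` : for `f` integral at `v_∞` and at all the middle expansions,
  `Norm_α f` is `v_∞`-integral and
  `res (Norm_α f) = res f · ∏_b expRes (ε b) f`    (residues in `k((q))`);
* `n2_valSetup` : the same for constant reductions `S∞` (`IsGaussSetup`), `Sm b` (`IsMidSetup`),
  `S₁` (`IsGaussSetup` at level `M₀ q`), in the multiplicative shape `hN2` of
  `Fermat.Agent.S36G.step1_mid` (`S36/G/Step1Abs.lean`, helper60): for scalings `y / c`,
  `y / cm b` with non-zero residues there is `c'` with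
  `ι (S₁.red (Norm_α y / c')) = ι (S∞.red (y / c)) * ∏ b, (Sm b).red (y / cm b)`,
  `ι : F_k(M₀) → igField k M₀` the inclusion.
-/

noncomputable section

namespace Fermat.Agent.S36N

open ModularCurve AlgebraicCurve Fermat.Agent.F3 Fermat.Agent.F3G Fermat.Agent.GaussInt
  Fermat.Agent.AtkinLehner Fermat.Agent.Kronecker Fermat.Agent.BadRed Fermat.Agent.HeckeComm
  Fermat.Agent.S36G Fermat.Agent.Deuring

local notation "Qb" => AlgebraicClosure ℚ

attribute [local instance 10000] SubalgebraClass.toAlgebra HahnSeries.powerSeriesAlgebra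

set_option synthInstance.maxHeartbeats 400000

variable {M₀ q : ℕ} [NeZero M₀] [NeZero q] {A : ValuationSubring Qb}

/-- residues are multiplicative on the Gauss ring of `ℚ̄((q))`. -/
theorem gaussResFun_top_mul {a b : LaurentSeries Qb}
    (ha : a ∈ gaussSub A (⊤ : IntermediateField Qb (LaurentSeries Qb)))
    (hb : b ∈ gaussSub A (⊤ : IntermediateField Qb (LaurentSeries Qb))) :
    gaussResFun A (⊤ : IntermediateField Qb (LaurentSeries Qb)) (a * b) =
      gaussResFun A (⊤ : IntermediateField Qb (LaurentSeries Qb)) a *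
        gaussResFun A (⊤ : IntermediateField Qb (LaurentSeries Qb)) b := by
  obtain ⟨Y₁, Y₂, hf⟩ := ha
  obtain ⟨Z₁, Z₂, hg⟩ := hb
  rw [gaussResFun_eq hf, gaussResFun_eq hg, gaussResFun_eq (hf.mul hg), div_mul_div_comm]
  simp only [map_mul]

/-- the residue of `1`. -/
theorem gaussResFun_top_one :
    gaussResFun A (⊤ : IntermediateField Qb (LaurentSeries Qb)) (1 : LaurentSeries Qb) = 1 := by
  rw [gaussResFun_eq (IsPres.one (A := A) (F := (⊤ : IntermediateField Qb (LaurentSeries Qb))))]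
  simp

/-- residues of finite products on the Gauss ring of `ℚ̄((q))`. -/
theorem gaussResFun_top_prod {ι : Type*} (s : Finset ι) (a : ι → LaurentSeries Qb)
    (ha : ∀ i ∈ s, a i ∈ gaussSub A (⊤ : IntermediateField Qb (LaurentSeries Qb))) :
    (∏ i ∈ s, a i) ∈ gaussSub A (⊤ : IntermediateField Qb (LaurentSeries Qb)) ∧
      gaussResFun A (⊤ : IntermediateField Qb (LaurentSeries Qb)) (∏ i ∈ s, a i) =
        ∏ i ∈ s, gaussResFun A (⊤ : IntermediateField Qb (LaurentSeries Qb)) (a i) := by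
  classical
  induction s using Finset.induction_on with
  | empty =>
    refine ⟨by rw [Finset.prod_empty]; exact one_mem _, ?_⟩
    rw [Finset.prod_empty, Finset.prod_empty]
    exact gaussResFun_top_one
  | insert i s hi ih =>
    obtain ⟨h1, h2⟩ := ih (fun j hj => ha j (Finset.mem_insert_of_mem hj))
    have hi' := ha i (Finset.mem_insert_self i s)
    refine ⟨by rw [Finset.prod_insert hi]; exact mul_mem hi' h1, ?_⟩
    rw [Finset.prod_insert hi, Finset.prod_insert hi, gaussResFun_top_mul hi' h1, h2]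

/-- **(N2), residue form**: `res (Norm_α f) = res f · ∏_b res (ε_b f)`. -/
theorem gaussRes_norm_alpha_mid (hq : q.Prime) (ζ : Qbˣ) (hζ : IsPrimitiveRoot ζ q)
    (ε : Fin (q - 1) → (FBar (M₀ * q * q) →ₐ[Qb] LaurentSeries Qb))
    (hε : ∀ b : Fin (q - 1), IsMidExp M₀ q (ζ ^ ((b : ℕ) + 1)) (ε b))
    {f : FBar (M₀ * q * q)}
    (hf : (f : LaurentSeries Qb) ∈ gaussSub A (⊤ : IntermediateField Qb (LaurentSeries Qb)))
    (hfm : ∀ b, f ∈ expOv (ε b) A) :
    ((normAlong (heckeAlphaBar Qb (M₀ * q) q) f : FBar (M₀ * q)) : LaurentSeries Qb) ∈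
        gaussSub A (⊤ : IntermediateField Qb (LaurentSeries Qb)) ∧
      gaussResFun A (⊤ : IntermediateField Qb (LaurentSeries Qb))
        ((normAlong (heckeAlphaBar Qb (M₀ * q) q) f : FBar (M₀ * q)) : LaurentSeries Qb) =
        gaussResFun A (⊤ : IntermediateField Qb (LaurentSeries Qb)) (f : LaurentSeries Qb) *
          ∏ b : Fin (q - 1), expRes (ε b) A f := by
  rw [norm_alpha_mid_expansion hq ζ hζ ε hε f]
  obtain ⟨h1, h2⟩ := gaussResFun_top_prod (A := A) Finset.univ (fun b => ε b f)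
    (fun b _ => (mem_expOv_iff (ε b) A f).mp (hfm b))
  refine ⟨mul_mem hf h1, ?_⟩
  rw [gaussResFun_top_mul hf h1, h2]
  rfl

/-! ### `ValSetup` form -/

section Setup

/-- shortcut (the instance found by unification is the same term, after a slow search). -/
local instance (priority := 10000) midSetupAlgFullC (A : ValuationSubring Qb) (N : ℕ) :
    Algebra (IsLocalRing.ResidueField A)
      (modularFunctionFieldFullC (IsLocalRing.ResidueField A) N) :=
  SubalgebraClass.toAlgebra (modularFunctionFieldFullC (IsLocalRing.ResidueField A) N)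

/-- shortcut. -/
local instance (priority := 10000) midSetupAlgIg (A : ValuationSubring Qb) (N : ℕ) :
    Algebra (IsLocalRing.ResidueField A) (igField (IsLocalRing.ResidueField A) N) :=
  SubalgebraClass.toAlgebra (igField (IsLocalRing.ResidueField A) N)

variable (hq : q.Prime) (hA : A.LiesOverPrime q) (ζ : Qbˣ) (hζ : IsPrimitiveRoot ζ q)
  (ε : Fin (q - 1) → (FBar (M₀ * q * q) →ₐ[Qb] LaurentSeries Qb))
  (hε : ∀ b : Fin (q - 1), IsMidExp M₀ q (ζ ^ ((b : ℕ) + 1)) (ε b))
  (Soo : ValSetup Qb (FBar (M₀ * q * q)) (IsLocalRing.ResidueField A)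
    (modularFunctionFieldFullC (IsLocalRing.ResidueField A) M₀))
  (hSoo : IsGaussSetup (M₀ * q * q) M₀ A Soo)
  (Sm : Fin (q - 1) → ValSetup Qb (FBar (M₀ * q * q)) (IsLocalRing.ResidueField A)
    (igField (IsLocalRing.ResidueField A) M₀))
  (hSm : ∀ b, IsMidSetup M₀ q A (ε b) (Sm b))
  (S₁ : ValSetup Qb (FBar (M₀ * q)) (IsLocalRing.ResidueField A)
    (modularFunctionFieldFullC (IsLocalRing.ResidueField A) M₀))
  (hS₁ : IsGaussSetup (M₀ * q) M₀ A S₁)

set_option maxHeartbeats 1000000 in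
include hq hA hS₁ in
/-- an element of `F₁` whose expansion lies in the Gauss ring of `ℚ̄((q))` is integral for `S₁`,
and its residue is the residue of the expansion. -/
theorem mem_S₁_of_top {x : FBar (M₀ * q)}
    (hx : (x : LaurentSeries Qb) ∈ gaussSub A (⊤ : IntermediateField Qb (LaurentSeries Qb))) :
    x ∈ S₁.Ov ∧ ((S₁.red x : modularFunctionFieldFullC (IsLocalRing.ResidueField A) M₀) :
      LaurentSeries (IsLocalRing.ResidueField A)) =
      gaussResFun A (⊤ : IntermediateField Qb (LaurentSeries Qb)) (x : LaurentSeries Qb) := by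
  have h1 : x ∈ gaussOv (M₀ * q) hq A hA := (ig_mem_gaussSub_top_iff (M₀ * q) hq A hA x).mp hx
  have h2 : (x : LaurentSeries Qb) ∈ gaussSub A (modularFunctionFieldBar (M₀ * q)) :=
    (mem_gaussValSub_iff _ x).mp h1
  have h3 : x ∈ S₁.Ov := (hS₁.mem_iff x).mpr h2
  exact ⟨h3, (hS₁.coe_red x h3).trans (gaussResFun_mono le_top h2).symm⟩

set_option maxHeartbeats 2000000 in
include hq hA hζ hε hSoo hSm hS₁ in
/-- **(N2), `ValSetup` form, scaled** (the hypothesis `hN2` of `S36G.step1_mid`). -/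
theorem n2_valSetup (y : FBar (M₀ * q * q)) (c : Qb) (cm : Fin (q - 1) → Qb) (hc : c ≠ 0)
    (hcm : ∀ b, cm b ≠ 0)
    (hy : Soo.red (y / algebraMap Qb (FBar (M₀ * q * q)) c) ≠ 0)
    (hym : ∀ b, (Sm b).red (y / algebraMap Qb (FBar (M₀ * q * q)) (cm b)) ≠ 0) :
    ∃ c' : Qb, c' ≠ 0 ∧
      IntermediateField.inclusion (fullC_le_igField (IsLocalRing.ResidueField A) M₀)
          (S₁.red (normAlong (heckeAlphaBar Qb (M₀ * q) q) y /
            algebraMap Qb (FBar (M₀ * q)) c')) =
        IntermediateField.inclusion (fullC_le_igField (IsLocalRing.ResidueField A) M₀)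
            (Soo.red (y / algebraMap Qb (FBar (M₀ * q * q)) c)) *
          ∏ b, (Sm b).red (y / algebraMap Qb (FBar (M₀ * q * q)) (cm b)) := by
  classical
  -- integrality of the scaled functions
  have hu_mem := Soo.mem_of_red_ne_zero hy
  have hu_g : ((y / algebraMap Qb (FBar (M₀ * q * q)) c : FBar (M₀ * q * q)) :
      LaurentSeries Qb) ∈ gaussSub A (modularFunctionFieldBar (M₀ * q * q)) :=
    (hSoo.mem_iff _).mp hu_mem
  have hu_top : ((y / algebraMap Qb (FBar (M₀ * q * q)) c : FBar (M₀ * q * q)) :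
      LaurentSeries Qb) ∈ gaussSub A (⊤ : IntermediateField Qb (LaurentSeries Qb)) :=
    gaussSub_mono le_top hu_g
  have hv_mem : ∀ b, y / algebraMap Qb (FBar (M₀ * q * q)) (cm b) ∈ (Sm b).Ov := fun b =>
    (Sm b).mem_of_red_ne_zero (hym b)
  have hv_exp : ∀ b, y / algebraMap Qb (FBar (M₀ * q * q)) (cm b) ∈ expOv (ε b) A := fun b =>
    ((hSm b).mem_iff _).mp (hv_mem b)
  have hv_top : ∀ b, ε b (y / algebraMap Qb (FBar (M₀ * q * q)) (cm b)) ∈
      gaussSub A (⊤ : IntermediateField Qb (LaurentSeries Qb)) := fun b =>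
    (mem_expOv_iff (ε b) A _).mp (hv_exp b)
  -- the constant
  set c' : Qb := c * ∏ b, cm b with hc'def
  have hc' : c' ≠ 0 := mul_ne_zero hc (Finset.prod_ne_zero_iff.mpr fun b _ => hcm b)
  refine ⟨c', hc', ?_⟩
  have hcF : algebraMap Qb (FBar (M₀ * q * q)) c ≠ 0 := (map_ne_zero _).mpr hc
  have hcmF : ∀ b, algebraMap Qb (FBar (M₀ * q * q)) (cm b) ≠ 0 := fun b =>
    (map_ne_zero _).mpr (hcm b)
  have hc'F : algebraMap Qb (FBar (M₀ * q)) c' ≠ 0 := (map_ne_zero _).mpr hc'
  have hc'L : algebraMap Qb (LaurentSeries Qb) c' ≠ 0 := (map_ne_zero _).mpr hc'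
  -- the product formula for the scaled functions
  have key := norm_alpha_mid_expansion hq ζ hζ ε hε y
  have e1 : (y : LaurentSeries Qb) = algebraMap Qb (LaurentSeries Qb) c *
      ((y / algebraMap Qb (FBar (M₀ * q * q)) c : FBar (M₀ * q * q)) : LaurentSeries Qb) := by
    have : y = algebraMap Qb (FBar (M₀ * q * q)) c *
        (y / algebraMap Qb (FBar (M₀ * q * q)) c) := by
      rw [mul_div_cancel₀ _ hcF]
    conv_lhs => rw [this]
    rfl
  have e2 : ∀ b, ε b y = algebraMap Qb (LaurentSeries Qb) (cm b) *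
      ε b (y / algebraMap Qb (FBar (M₀ * q * q)) (cm b)) := by
    intro b
    have : y = algebraMap Qb (FBar (M₀ * q * q)) (cm b) *
        (y / algebraMap Qb (FBar (M₀ * q * q)) (cm b)) := by
      rw [mul_div_cancel₀ _ (hcmF b)]
    conv_lhs => rw [this]
    rw [map_mul, AlgHom.commutes]
  have e3 : ((normAlong (heckeAlphaBar Qb (M₀ * q) q) y : FBar (M₀ * q)) : LaurentSeries Qb) =
      algebraMap Qb (LaurentSeries Qb) c' *
        ((normAlong (heckeAlphaBar Qb (M₀ * q) q) y / algebraMap Qb (FBar (M₀ * q)) c' :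
          FBar (M₀ * q)) : LaurentSeries Qb) := by
    have : normAlong (heckeAlphaBar Qb (M₀ * q) q) y = algebraMap Qb (FBar (M₀ * q)) c' *
        (normAlong (heckeAlphaBar Qb (M₀ * q) q) y / algebraMap Qb (FBar (M₀ * q)) c') := by
      rw [mul_div_cancel₀ _ hc'F]
    conv_lhs => rw [this]
    rfl
  have hprod : ((normAlong (heckeAlphaBar Qb (M₀ * q) q) y / algebraMap Qb (FBar (M₀ * q)) c' :
      FBar (M₀ * q)) : LaurentSeries Qb) =
      ((y / algebraMap Qb (FBar (M₀ * q * q)) c : FBar (M₀ * q * q)) : LaurentSeries Qb) *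
        ∏ b, ε b (y / algebraMap Qb (FBar (M₀ * q * q)) (cm b)) := by
    apply mul_left_cancel₀ hc'L
    rw [← e3, key, e1, Finset.prod_congr rfl (fun b _ => e2 b), Finset.prod_mul_distrib,
      hc'def, map_mul, map_prod]
    ring
  obtain ⟨hP1, hP2⟩ := gaussResFun_top_prod (A := A) Finset.univ
    (fun b => ε b (y / algebraMap Qb (FBar (M₀ * q * q)) (cm b))) (fun b _ => hv_top b)
  have hx_top : ((normAlong (heckeAlphaBar Qb (M₀ * q) q) y /
      algebraMap Qb (FBar (M₀ * q)) c' : FBar (M₀ * q)) : LaurentSeries Qb) ∈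
      gaussSub A (⊤ : IntermediateField Qb (LaurentSeries Qb)) := by
    rw [hprod]
    exact mul_mem hu_top hP1
  obtain ⟨hx_mem, hx_red⟩ := mem_S₁_of_top hq hA S₁ hS₁ hx_top
  apply Subtype.ext
  rw [IntermediateField.coe_inclusion, hx_red, hprod, gaussResFun_top_mul hu_top hP1, hP2,
    MulMemClass.coe_mul, IntermediateField.coe_inclusion, hSoo.coe_red _ hu_mem,
    gaussResFun_mono le_top hu_g, IntermediateField.coe_prod]
  congr 1
  refine Finset.prod_congr rfl fun b _ => ?_
  rw [(hSm b).coe_red _ (hv_mem b)]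
  rfl

end Setup

end Fermat.Agent.S36N
end
end MergeWrap_S36_Norm_MidSetup
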