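import Fermat.Agent.MU.S36.Norm.VertRed
import Fermat.Agent.MU.S36.Val.Restr
import Fermat.Agent.Lib.BadRed.Mod.FrobAut

section MergeWrap_S36_Norm_VertSetup -- from S36/Norm/VertSetup.lean

set_option autoImplicit false
set_option linter.style.haveILetI false
set_option linter.unusedSectionVars false
set_option linter.unusedVariables false

/-!
# S36 (Carayol), block NORM: (N1), (N1') for constant reductions (`ValSetup` form)  (helper66)

`ℓ` prime, `ℓ ∣ N`, `A ∣ ℓ`, `k` the residue field; `S₁`, `S₂` Gauss setups (`IsGaussSetup`) of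
`F₁ = F_N`, `F = F_{Nℓ}` with the same residue field `F_k(N₀)`; `α, β : F₁ → F` the degeneracy maps,
`W₂ = wAt D₂`, `w₁ = wAt D₁` (`D₂.Q = D₁.Q ℓ`), `v_0 = valSetupZeroAt` (helper68); `Φ` the
coefficientwise Frobenius of `F_k(N₀)` (`frobAut`, a ring automorphism).

* `red_norm_beta`        : `red_∞¹ (Norm_β y) = Φ (red_∞ y)`;
* `red_zero_norm_alpha`  : `red_0¹ (Norm_α y) = Φ (red_0 y)`                          (N1);
* `red_zero_norm_alpha_W`: `red_0¹ (Norm_α (W₂ y)) = Φ (red_∞ y)`                     (N1');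
* `n1_valSetup_zero`, `n1_valSetup_inf` : the same in the scaled shape `hN` of
  `Fermat.Agent.S36G.step1_frob` (helper60), with `frobRingAut_symm_const` (`hΦ`);
* `red_zero_alpha_norm`  : `red_0 (α (Norm_α y)) = (red_0 y) ^ ℓ`   (the norm seen in `F`, `π₁`);
* `red_inf_W_alpha_norm` : `red_∞ (W₂ (α (Norm_α (W₂ y)))) = (red_∞ y) ^ ℓ`          (`π₂`);
all for `y` with non-zero residue.
-/

noncomputable section

namespace Fermat.Agent.S36N

open ModularCurve AlgebraicCurve Fermat.Agent.F3 Fermat.Agent.F3G Fermat.Agent.GaussInt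
  Fermat.Agent.AtkinLehner Fermat.Agent.Kronecker Fermat.Agent.BadRed Fermat.Agent.HeckeComm
  Fermat.Agent.S36G Fermat.Agent.Deuring

local notation "Qb" => AlgebraicClosure ℚ

attribute [local instance 10000] SubalgebraClass.toAlgebra HahnSeries.powerSeriesAlgebra

set_option synthInstance.maxHeartbeats 400000

/-- shortcut (the instance found by unification is the same term, after a slow search). -/
local instance (priority := 10000) vertSetupAlgFullC (A : ValuationSubring Qb) (N : ℕ) :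
    Algebra (IsLocalRing.ResidueField A)
      (modularFunctionFieldFullC (IsLocalRing.ResidueField A) N) :=
  SubalgebraClass.toAlgebra (modularFunctionFieldFullC (IsLocalRing.ResidueField A) N)

/-- the norm of a constant is a constant. -/
theorem exists_normAlong_const {K F F' : Type*} [Field K] [Field F] [Field F'] [Algebra K F]
    [Algebra K F'] (φ : F →ₐ[K] F') :
    ∃ m : ℕ, ∀ c : K, normAlong φ (algebraMap K F' c) = algebraMap K F (c ^ m) := by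
  letI := algebraAlong φ
  refine ⟨Module.finrank F F', fun c => ?_⟩
  have h1 : algebraMap K F' c = algebraMap F F' (algebraMap K F c) := (φ.commutes c).symm
  show Algebra.norm F (algebraMap K F' c) = _
  rw [h1, Algebra.norm_algebraMap, map_pow]

/-- the norm of a scaled function. -/
theorem exists_normAlong_div_const {K F F' : Type*} [Field K] [Field F] [Field F']
    [Algebra K F] [Algebra K F'] (φ : F →ₐ[K] F') :
    ∃ m : ℕ, ∀ (y : F') (c : K), c ≠ 0 →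
      normAlong φ (y / algebraMap K F' c) = normAlong φ y / algebraMap K F (c ^ m) := by
  obtain ⟨m, hm⟩ := exists_normAlong_const φ
  refine ⟨m, fun y c hc => ?_⟩
  have hc' : algebraMap K F' c ≠ 0 := (map_ne_zero _).mpr hc
  have hcm : algebraMap K F (c ^ m) ≠ 0 := (map_ne_zero _).mpr (pow_ne_zero m hc)
  have h1 : normAlong φ (y / algebraMap K F' c) * normAlong φ (algebraMap K F' c) =
      normAlong φ y := by
    rw [← map_mul, div_mul_cancel₀ _ hc']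
  rw [hm] at h1
  rw [← h1, mul_div_cancel_right₀ _ hcm]

section Frob

variable {N ℓ N₀ : ℕ} [NeZero N] [NeZero ℓ] [NeZero N₀] {A : ValuationSubring Qb}
  [Fact ℓ.Prime] [CharP (IsLocalRing.ResidueField A) ℓ]
  [PerfectRing (IsLocalRing.ResidueField A) ℓ]

/-- the coefficientwise Frobenius of `F_k(N₀)` as a ring automorphism. -/
def frobRingAut (A : ValuationSubring Qb) (N₀ ℓ : ℕ) [Fact ℓ.Prime]
    [CharP (IsLocalRing.ResidueField A) ℓ] [PerfectRing (IsLocalRing.ResidueField A) ℓ] :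
    modularFunctionFieldFullC (IsLocalRing.ResidueField A) N₀ ≃+*
      modularFunctionFieldFullC (IsLocalRing.ResidueField A) N₀ :=
  SemilinearAut.toRingAut (frobAut (IsLocalRing.ResidueField A) N₀ ℓ)

theorem coe_frobRingAut (f : modularFunctionFieldFullC (IsLocalRing.ResidueField A) N₀) :
    ((frobRingAut A N₀ ℓ f : modularFunctionFieldFullC (IsLocalRing.ResidueField A) N₀) :
      LaurentSeries (IsLocalRing.ResidueField A)) =
      coeffMap (frobenius (IsLocalRing.ResidueField A) ℓ)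
        (f : LaurentSeries (IsLocalRing.ResidueField A)) :=
  coe_frobAut_smul (IsLocalRing.ResidueField A) N₀ ℓ f

/-- `Φ⁻¹` maps constants to constants (the hypothesis `hΦ` of `S36G.step1_frob`). -/
theorem frobRingAut_symm_const (c : IsLocalRing.ResidueField A) :
    ∃ c' : IsLocalRing.ResidueField A,
      (frobRingAut A N₀ ℓ).symm
          (algebraMap (IsLocalRing.ResidueField A)
            (modularFunctionFieldFullC (IsLocalRing.ResidueField A) N₀) c) =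
        algebraMap (IsLocalRing.ResidueField A)
          (modularFunctionFieldFullC (IsLocalRing.ResidueField A) N₀) c' := by
  refine ⟨(frobeniusEquiv (IsLocalRing.ResidueField A) ℓ).symm c, ?_⟩
  rw [RingEquiv.symm_apply_eq]
  have h := frobAut_smul_algebraMap (IsLocalRing.ResidueField A) N₀ ℓ
    ((frobeniusEquiv (IsLocalRing.ResidueField A) ℓ).symm c)
  rw [frobeniusEquiv_symm_pow_p] at h
  exact h.symm

/-- `x ^ ℓ` is the Frobenius twist composed with `T ↦ T ^ ℓ`. -/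
theorem coe_pow_char (f : modularFunctionFieldFullC (IsLocalRing.ResidueField A) N₀) :
    ((f ^ ℓ : modularFunctionFieldFullC (IsLocalRing.ResidueField A) N₀) :
      LaurentSeries (IsLocalRing.ResidueField A)) =
      qExpand (IsLocalRing.ResidueField A) ℓ
        (coeffMap (frobenius (IsLocalRing.ResidueField A) ℓ)
          (f : LaurentSeries (IsLocalRing.ResidueField A))) := by
  rw [SubmonoidClass.coe_pow]
  exact pow_char_eq_qExpand_frobenius (k := IsLocalRing.ResidueField A) (ℓ := ℓ) _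

variable (S₁ : ValSetup Qb (FBar N) (IsLocalRing.ResidueField A)
    (modularFunctionFieldFullC (IsLocalRing.ResidueField A) N₀))
  (S₂ : ValSetup Qb (FBar (N * ℓ)) (IsLocalRing.ResidueField A)
    (modularFunctionFieldFullC (IsLocalRing.ResidueField A) N₀))
  (hS₁ : IsGaussSetup N N₀ A S₁) (hS₂ : IsGaussSetup (N * ℓ) N₀ A S₂)
  (hA : A.LiesOverPrime ℓ) (hℓN : ℓ ∣ N) (D₁ D₂ : ALData)
  (hQ : D₂.Q = D₁.Q * ℓ) (hR : D₂.R = D₁.R) (hN : N = D₁.Q * D₁.R)
  (hNℓ : N * ℓ = D₂.Q * D₂.R)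

include hS₁ hS₂ hA hℓN hQ hR hN hNℓ in
/-- **the norm along `β` at `v_∞`**: `red_∞¹ (Norm_β y) = Φ (red_∞ y)`. -/
theorem red_norm_beta {y : FBar (N * ℓ)} (hy : S₂.red y ≠ 0) :
    normAlong (heckeBetaBar Qb N ℓ) y ∈ S₁.Ov ∧
      S₁.red (normAlong (heckeBetaBar Qb N ℓ) y) = frobRingAut A N₀ ℓ (S₂.red y) := by
  have hmem : y ∈ S₂.Ov := S₂.mem_of_red_ne_zero hy
  have hg : (y : LaurentSeries Qb) ∈ gaussSub A (modularFunctionFieldBar (N * ℓ)) :=
    (hS₂.mem_iff y).mp hmem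
  have hcoe := hS₂.coe_red y hmem
  have hr : gaussResFun A (modularFunctionFieldBar (N * ℓ)) (y : LaurentSeries Qb) ≠ 0 := by
    rw [← hcoe]
    intro h0
    exact hy (Subtype.ext (by rw [h0, ZeroMemClass.coe_zero]))
  obtain ⟨h1, h2⟩ := gaussResFun_norm_beta hA hℓN D₁ D₂ hQ hR hN hNℓ hg hr
  have hm₁ : normAlong (heckeBetaBar Qb N ℓ) y ∈ S₁.Ov := (hS₁.mem_iff _).mpr h1
  refine ⟨hm₁, Subtype.ext ?_⟩
  rw [hS₁.coe_red _ hm₁, h2, coe_frobRingAut, hcoe]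

include hQ hR in
/-- `Norm_α y = w₁ (Norm_β (W₂ y))`. -/
theorem normAlong_alpha_eq (y : FBar (N * ℓ)) :
    normAlong (heckeAlphaBar Qb N ℓ) y =
      wAt D₁ hN (normAlong (heckeBetaBar Qb N ℓ) (wAt D₂ hNℓ y)) := by
  rw [normAlong_beta_wAt D₁ D₂ hQ hR hN hNℓ, wAt_wAt]

include hS₁ hS₂ hA hℓN hQ hR in
/-- **(N1)** `red_0¹ (Norm_α y) = Φ (red_0 y)`. -/
theorem red_zero_norm_alpha {y : FBar (N * ℓ)} (hy : (valSetupZeroAt D₂ hNℓ S₂).red y ≠ 0) :
    normAlong (heckeAlphaBar Qb N ℓ) y ∈ (valSetupZeroAt D₁ hN S₁).Ov ∧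
      (valSetupZeroAt D₁ hN S₁).red (normAlong (heckeAlphaBar Qb N ℓ) y) =
        frobRingAut A N₀ ℓ ((valSetupZeroAt D₂ hNℓ S₂).red y) := by
  rw [valSetupZeroAt_red] at hy
  obtain ⟨h1, h2⟩ := red_norm_beta S₁ S₂ hS₁ hS₂ hA hℓN D₁ D₂ hQ hR hN hNℓ hy
  rw [mem_valSetupZeroAt_Ov, valSetupZeroAt_red, valSetupZeroAt_red,
    normAlong_alpha_eq D₁ D₂ hQ hR hN hNℓ, wAt_wAt]
  exact ⟨h1, h2⟩

include hS₁ hS₂ hA hℓN hQ hR in
/-- **(N1')** `red_0¹ (Norm_α (W₂ y)) = Φ (red_∞ y)`. -/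
theorem red_zero_norm_alpha_W {y : FBar (N * ℓ)} (hy : S₂.red y ≠ 0) :
    normAlong (heckeAlphaBar Qb N ℓ) (wAt D₂ hNℓ y) ∈ (valSetupZeroAt D₁ hN S₁).Ov ∧
      (valSetupZeroAt D₁ hN S₁).red (normAlong (heckeAlphaBar Qb N ℓ) (wAt D₂ hNℓ y)) =
        frobRingAut A N₀ ℓ (S₂.red y) := by
  obtain ⟨h1, h2⟩ := red_norm_beta S₁ S₂ hS₁ hS₂ hA hℓN D₁ D₂ hQ hR hN hNℓ hy
  rw [mem_valSetupZeroAt_Ov, valSetupZeroAt_red, normAlong_alpha_eq D₁ D₂ hQ hR hN hNℓ,
    wAt_wAt, wAt_wAt]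
  exact ⟨h1, h2⟩

include hS₁ hS₂ hA hℓN hQ hR in
/-- **(N1), scaled** (the hypothesis `hN` of `S36G.step1_frob` for `v_0`, `N = Norm_α`). -/
theorem n1_valSetup_zero (y : FBar (N * ℓ)) (c : Qb) (hc : c ≠ 0)
    (hy : (valSetupZeroAt D₂ hNℓ S₂).red (y / algebraMap Qb (FBar (N * ℓ)) c) ≠ 0) :
    ∃ c' : Qb, c' ≠ 0 ∧
      (valSetupZeroAt D₁ hN S₁).red
          (normAlong (heckeAlphaBar Qb N ℓ) y / algebraMap Qb (FBar N) c') =
        frobRingAut A N₀ ℓ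
          ((valSetupZeroAt D₂ hNℓ S₂).red (y / algebraMap Qb (FBar (N * ℓ)) c)) := by
  obtain ⟨m, hm⟩ := exists_normAlong_div_const (heckeAlphaBar Qb N ℓ)
  refine ⟨c ^ m, pow_ne_zero m hc, ?_⟩
  rw [← hm _ _ hc]
  exact (red_zero_norm_alpha S₁ S₂ hS₁ hS₂ hA hℓN D₁ D₂ hQ hR hN hNℓ hy).2

include hS₁ hS₂ hA hℓN hQ hR in
/-- **(N1'), scaled** (the hypothesis `hN` of `S36G.step1_frob` for `v_∞`,
`N = Norm_α ∘ W₂`). -/
theorem n1_valSetup_inf (y : FBar (N * ℓ)) (c : Qb) (hc : c ≠ 0)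
    (hy : S₂.red (y / algebraMap Qb (FBar (N * ℓ)) c) ≠ 0) :
    ∃ c' : Qb, c' ≠ 0 ∧
      (valSetupZeroAt D₁ hN S₁).red
          (normAlong (heckeAlphaBar Qb N ℓ) (wAt D₂ hNℓ y) / algebraMap Qb (FBar N) c') =
        frobRingAut A N₀ ℓ (S₂.red (y / algebraMap Qb (FBar (N * ℓ)) c)) := by
  obtain ⟨m, hm⟩ := exists_normAlong_div_const (heckeAlphaBar Qb N ℓ)
  refine ⟨c ^ m, pow_ne_zero m hc, ?_⟩
  have e : wAt D₂ hNℓ y / algebraMap Qb (FBar (N * ℓ)) c =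
      wAt D₂ hNℓ (y / algebraMap Qb (FBar (N * ℓ)) c) := by
    rw [map_div₀, AlgEquiv.commutes]
  rw [← hm _ _ hc, e]
  exact (red_zero_norm_alpha_W S₁ S₂ hS₁ hS₂ hA hℓN D₁ D₂ hQ hR hN hNℓ hy).2

include hS₁ hS₂ hA hℓN hQ hR hN in
/-- **the norm seen in `F`, `π₁`, at `v_0`**: `red_0 (α (Norm_α y)) = (red_0 y) ^ ℓ`. -/
theorem red_zero_alpha_norm {y : FBar (N * ℓ)} (hy : (valSetupZeroAt D₂ hNℓ S₂).red y ≠ 0) :
    heckeAlphaBar Qb N ℓ (normAlong (heckeAlphaBar Qb N ℓ) y) ∈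
        (valSetupZeroAt D₂ hNℓ S₂).Ov ∧
      (valSetupZeroAt D₂ hNℓ S₂).red
          (heckeAlphaBar Qb N ℓ (normAlong (heckeAlphaBar Qb N ℓ) y)) =
        (valSetupZeroAt D₂ hNℓ S₂).red y ^ ℓ := by
  obtain ⟨h1, h2⟩ := red_zero_norm_alpha S₁ S₂ hS₁ hS₂ hA hℓN D₁ D₂ hQ hR hN hNℓ hy
  refine ⟨(alpha_mem_zeroAt_iff A S₁ S₂ hS₁ hS₂ D₁ D₂ hQ hR hN hNℓ _).mpr h1, Subtype.ext ?_⟩
  rw [coe_red_zeroAt_alpha A S₁ S₂ hS₁ hS₂ D₁ D₂ hQ hR hN hNℓ h1, h2, coe_frobRingAut,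
    coe_pow_char]

include hS₁ hS₂ hA hℓN hQ hR hN in
/-- **the norm seen in `F`, `π₂`, at `v_∞`**:
`red_∞ (W₂ (α (Norm_α (W₂ y)))) = (red_∞ y) ^ ℓ`. -/
theorem red_inf_W_alpha_norm {y : FBar (N * ℓ)} (hy : S₂.red y ≠ 0) :
    wAt D₂ hNℓ (heckeAlphaBar Qb N ℓ (normAlong (heckeAlphaBar Qb N ℓ) (wAt D₂ hNℓ y))) ∈
        S₂.Ov ∧
      S₂.red (wAt D₂ hNℓ
          (heckeAlphaBar Qb N ℓ (normAlong (heckeAlphaBar Qb N ℓ) (wAt D₂ hNℓ y)))) =
        S₂.red y ^ ℓ := by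
  have hy' : (valSetupZeroAt D₂ hNℓ S₂).red (wAt D₂ hNℓ y) ≠ 0 := by
    rw [valSetupZeroAt_red_wAt]
    exact hy
  obtain ⟨h1, h2⟩ := red_zero_alpha_norm S₁ S₂ hS₁ hS₂ hA hℓN D₁ D₂ hQ hR hN hNℓ hy'
  rw [mem_valSetupZeroAt_Ov] at h1
  rw [valSetupZeroAt_red, valSetupZeroAt_red_wAt] at h2
  exact ⟨h1, h2⟩

end Frob

end Fermat.Agent.S36N
end
end MergeWrap_S36_Norm_VertSetup
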